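import Fermat.Agent.S21
import Fermat.Agent.S29.Betti.EigenSupport
import Fermat.Agent.S29.Betti.PeriodHecke

/-!
# S41 / Betti: the Betti Hecke operators commute on the parabolic classes

Every parabolic `c : Γ₀(M) → ℂ` is `P(u) - conj ∘ P(v)` for cusp forms `u`, `v` (Eichler--Shimura,
S21).  An additive operator on `Hom(Γ₀(M), ℂ)` which is natural in the coefficients (commutes with
post-composition by complex conjugation) and corresponds, through the period map, to an operator on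
cusp forms is therefore determined on the parabolic classes by the latter; two such operators
commute on the parabolic classes as soon as the operators on cusp forms commute.

* `exists_periods_of_mem_parabolicHoms`
* `commute_on_parabolicHoms` (general form, also meant for `U_q`)
* `heckeHom_comm_of_mem_parabolicHoms`, `commute_heckeX` (the `T_ℓ`, `ℓ ∤ M`).
-/

set_option autoImplicit false

namespace Fermat.Agent.S41.Betti.HeckeCommute

open CongruenceSubgroup ModularCurve ModularCurve.Period Fermat.Agent.S21 Fermat.Agent.S29.Betti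
open scoped MatrixGroups ComplexConjugate

noncomputable section

variable {M : ℕ} [NeZero M]

/-- complex conjugation as an additive map. -/
def conjAdd : ℂ →+ ℂ := (starRingEnd ℂ : ℂ →+* ℂ).toAddMonoidHom

@[simp] theorem conjAdd_apply (z : ℂ) : conjAdd z = conj z := rfl

/-- **Eichler--Shimura, elementwise**: a parabolic class is `P(u) - conj ∘ P(v)`. -/
theorem exists_periods_of_mem_parabolicHoms (c : Additive (Gamma0 M) →+ ℂ)
    (hc : c ∈ parabolicHoms ℂ (Gamma0 M) ℂ) :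
    ∃ u v : CuspForm (Gamma0 M) 2, c = periodMap M u - conjAdd.comp (periodMap M v) := by
  rw [← (Fermat.Agent.S21.result M).2] at hc
  obtain ⟨p, rfl⟩ := hc
  refine ⟨(conjPair M p).1, (conjPair M p).2, ?_⟩
  refine AddMonoidHom.ext fun γ => ?_
  rw [periodHomPair_apply_conjPair (existsPeriodMapLinear M)
    (fun f => ⟨_, hasEquivariantPrimitive M f⟩) p γ]
  rfl

/-- **General commutation lemma.** -/
theorem commute_on_parabolicHoms
    (A B : (Additive (Gamma0 M) →+ ℂ) →+ (Additive (Gamma0 M) →+ ℂ))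
    (a b : Module.End ℂ (CuspForm (Gamma0 M) 2)) (hab : Commute a b)
    (hA : ∀ f, A (periodMap M f) = periodMap M (a f))
    (hB : ∀ f, B (periodMap M f) = periodMap M (b f))
    (hAc : ∀ c, A (conjAdd.comp c) = conjAdd.comp (A c))
    (hBc : ∀ c, B (conjAdd.comp c) = conjAdd.comp (B c))
    (c : Additive (Gamma0 M) →+ ℂ) (hc : c ∈ parabolicHoms ℂ (Gamma0 M) ℂ) :
    A (B c) = B (A c) := by
  obtain ⟨u, v, rfl⟩ := exists_periods_of_mem_parabolicHoms c hc
  have h1 : ∀ f, a (b f) = b (a f) := fun f => LinearMap.congr_fun hab.eq f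
  rw [map_sub, map_sub, map_sub, map_sub, hB, hA, hA, hB, hBc, hAc, hAc, hBc, hB, hA, hA, hB,
    h1 u, h1 v]

/-- an operator as in `commute_on_parabolicHoms` preserves the parabolic classes. -/
theorem mem_parabolicHoms_of_natural
    (A : (Additive (Gamma0 M) →+ ℂ) →+ (Additive (Gamma0 M) →+ ℂ))
    (a : Module.End ℂ (CuspForm (Gamma0 M) 2))
    (hA : ∀ f, A (periodMap M f) = periodMap M (a f))
    (hAc : ∀ c, A (conjAdd.comp c) = conjAdd.comp (A c))
    (c : Additive (Gamma0 M) →+ ℂ) (hc : c ∈ parabolicHoms ℂ (Gamma0 M) ℂ) :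
    A c ∈ parabolicHoms ℂ (Gamma0 M) ℂ := by
  obtain ⟨u, v, rfl⟩ := exists_periods_of_mem_parabolicHoms c hc
  rw [map_sub, hA, hAc, hA]
  refine Submodule.sub_mem _ (periodMap_mem_parabolicHoms M _) ?_
  have h := periodMap_mem_parabolicHoms M (a v)
  rw [mem_parabolicHoms_iff] at h ⊢
  intro γ hγ
  change conj (periodMap M (a v) (Additive.ofMul γ)) = 0
  rw [h γ hγ, map_zero]

omit [NeZero M] in
/-- the admissible complex characters are parabolic. -/
theorem mem_parabolicHoms_of_mem_XMod {c : Additive (Gamma0 M) →+ ℂ} (hc : c ∈ XMod M ℂ ℂ) :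
    c ∈ parabolicHoms ℂ (Gamma0 M) ℂ := by
  rw [mem_parabolicHoms_iff]
  intro γ hγ
  exact hc γ (Or.inl hγ)

/-- **`T_ℓ T_ℓ' = T_ℓ' T_ℓ` on the parabolic classes.** -/
theorem heckeHom_comm_of_mem_parabolicHoms {ℓ ℓ' : ℕ} [hℓ : Fact ℓ.Prime] [hℓ' : Fact ℓ'.Prime]
    (hℓM : ¬ ℓ ∣ M) (hℓ'M : ¬ ℓ' ∣ M) (c : Additive (Gamma0 M) →+ ℂ)
    (hc : c ∈ parabolicHoms ℂ (Gamma0 M) ℂ) :
    heckeHom hℓM ℂ (heckeHom hℓ'M ℂ c) = heckeHom hℓ'M ℂ (heckeHom hℓM ℂ c) :=
  commute_on_parabolicHoms (heckeHom hℓM ℂ) (heckeHom hℓ'M ℂ)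
    (CuspForm.heckeTLin 2 hℓ.out hℓM) (CuspForm.heckeTLin 2 hℓ'.out hℓ'M)
    (CuspForm.commute_of_mem_heckeGenerators
      (CuspForm.heckeTLin_mem_heckeGenerators hℓ.out hℓM (Set.notMem_empty _))
      (CuspForm.heckeTLin_mem_heckeGenerators hℓ'.out hℓ'M (Set.notMem_empty _)))
    (fun f => (periodMap_heckeTLin hℓ.out hℓM f).symm)
    (fun f => (periodMap_heckeTLin hℓ'.out hℓ'M f).symm)
    (fun c => heckeHom_comp hℓM ℂ conjAdd c) (fun c => heckeHom_comp hℓ'M ℂ conjAdd c) c hc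

/-- **The `T_ℓ` commute on `XMod M ℂ ℂ`.** -/
theorem commute_heckeX {ℓ ℓ' : ℕ} [Fact ℓ.Prime] [Fact ℓ'.Prime]
    (hℓM : ¬ ℓ ∣ M) (hℓ'M : ¬ ℓ' ∣ M) :
    Commute (heckeX hℓM ℂ ℂ : Module.End ℂ (XMod M ℂ ℂ)) (heckeX hℓ'M ℂ ℂ) := by
  apply LinearMap.ext
  intro x
  apply Subtype.ext
  exact heckeHom_comm_of_mem_parabolicHoms hℓM hℓ'M x.1 (mem_parabolicHoms_of_mem_XMod x.2)

end

end Fermat.Agent.S41.Betti.HeckeCommute
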