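import Fermat.Agent.S41.Betti.LatticeSpan
import Fermat.Agent.S41.Betti.HeckeCommute
import Fermat.Agent.S41.Count.KerLift

/-!
# S41 (V5): from the integral new vector to a complex eigenvector

`K` is any `ℤ`-submodule of `XMod M ℤ ℤ` stable under the `T_ℓ` of a family `g : ι → GoodPrime M`
(in the application `K = ker i_*`, `M = N q`).  A vector `y ∈ K`, `y ∉ p • K`, which is a mod-`p`
eigenvector (modulo `p • K`) with integer eigenvalues `θ i`, yields a NONZERO `v ∈ XMod M ℂ ℂ` in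
the complex span of `K`, a common eigenvector of the `T_ℓ` with eigenvalues algebraic integers
congruent to `θ i` modulo a maximal ideal above `p`.  Every `ℂ`-linear `U` with `U ∘ U = id` on
the image of `K` satisfies `U (U v) = v`.
-/

set_option autoImplicit false

namespace Fermat.Agent.S41.Betti.NewLift

open CongruenceSubgroup Fermat.Agent.S29.Betti Fermat.Agent.S41.Betti.LatticeSpan
open Fermat.Agent.S41.Count.Descent Fermat.Agent.S41.Count.KerLift
open scoped MatrixGroups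

noncomputable section

variable {M : ℕ} [NeZero M]

/-- **(V5).** -/
theorem exists_complex_new_vector (p : ℕ) (K : Submodule ℤ (XMod M ℤ ℤ))
    {ι : Type*} (g : ι → GoodPrime M)
    (hK : ∀ i, ∀ y ∈ K, heckeX (g i).2 ℤ ℤ y ∈ K)
    (θ : ι → ℤ) (y : XMod M ℤ ℤ) (hyK : y ∈ K) (hy : ∀ z ∈ K, y ≠ (p : ℤ) • z)
    (hyT : ∀ i, ∃ z ∈ K, heckeX (g i).2 ℤ ℤ y = θ i • y + (p : ℤ) • z)
    (U : Module.End ℂ (XMod M ℂ ℂ)) (hU : ∀ x ∈ K, U (U (castX M x)) = castX M x) :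
    ∃ (v : XMod M ℂ ℂ) (θ' : ι → integralClosure ℤ ℂ) (𝔪' : Ideal (integralClosure ℤ ℂ)),
      v ≠ 0 ∧ 𝔪'.IsMaximal ∧ (p : integralClosure ℤ ℂ) ∈ 𝔪' ∧
      (∀ i, heckeX (g i).2 ℂ ℂ v = ((θ' i : integralClosure ℤ ℂ) : ℂ) • v ∧
        θ' i - ((θ i : ℤ) : integralClosure ℤ ℂ) ∈ 𝔪') ∧
      U (U v) = v := by
  classical
  let T : ι → Module.End ℂ (XMod M ℂ ℂ) := fun i => heckeX (g i).2 ℂ ℂ
  have hcomm : ∀ i j, Commute (T i) (T j) := fun i j =>
    Fermat.Agent.S41.Betti.HeckeCommute.commute_heckeX (g i).2 (g j).2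
  let B : Submodule ℤ (XMod M ℂ ℂ) := K.map (castX M)
  have hBfg : B.FG := by
    have hKfg : K.FG := IsNoetherian.noetherian K
    exact hKfg.map _
  have hBT : ∀ i, ∀ x ∈ B, T i x ∈ B := by
    rintro i _ ⟨c, hc, rfl⟩
    exact ⟨heckeX (g i).2 ℤ ℤ c, hK i c hc, castX_heckeX M (g i).2 c⟩
  have hpsmul : ∀ z : XMod M ℤ ℤ, castX M ((p : ℤ) • z) = (p : ℂ) • castX M z := by
    intro z
    rw [map_zsmul, ← Int.cast_smul_eq_zsmul ℂ]
    norm_num
  have hyB : castX M y ∈ B := ⟨y, hyK, rfl⟩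
  have hy' : castX M y ∉ pLat p B := by
    intro h
    obtain ⟨b, ⟨z, hz, rfl⟩, hb⟩ := mem_pLat.mp h
    rw [← hpsmul] at hb
    exact hy z hz (castX_injective M hb)
  have hχ : ∀ i ∈ (Set.univ : Set ι), T i (castX M y) - (θ i : ℂ) • castX M y ∈ pLat p B := by
    intro i _
    obtain ⟨z, hz, hzy⟩ := hyT i
    refine mem_pLat.mpr ⟨castX M z, ⟨z, hz, rfl⟩, ?_⟩
    have h1 : T i (castX M y) = castX M (heckeX (g i).2 ℤ ℤ y) := (castX_heckeX M (g i).2 y).symm
    rw [h1, hzy, map_add, hpsmul, map_zsmul, ← Int.cast_smul_eq_zsmul ℂ (θ i)]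
    abel
  have hUU : ∀ w ∈ Submodule.span ℂ (B : Set (XMod M ℂ ℂ)), U (U w) = w := by
    intro w hw
    induction hw using Submodule.span_induction with
    | mem x hx =>
      obtain ⟨k, hk, rfl⟩ := hx
      exact hU k hk
    | zero => rw [map_zero, map_zero]
    | add x z _ _ hx hz => rw [map_add, map_add, hx, hz]
    | smul a x _ hx => rw [map_smul, map_smul, hx]
  obtain ⟨v, hvB, hv0, θ'', hθ'', 𝔪', hmax, hp', hcong⟩ :=
    exists_eigenvector_in_span_of_mod_eigenvector T hcomm B hBfg hBT p (castX M y) hyB hy'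
      Set.univ θ hχ
  choose c hc1 hc2 using fun i => hcong i (Set.mem_univ i)
  refine ⟨v, c, 𝔪', hv0, hmax, hp', fun i => ⟨?_, hc2 i⟩, hUU v hvB⟩
  rw [hc1 i]
  exact hθ'' i

end

end Fermat.Agent.S41.Betti.NewLift
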