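import Fermat.Agent.S41.Betti.HeckeCommute

/-!
# S41 (V6): transport of a complex Betti eigenvector to a cusp form

A nonzero `v ∈ XMod M ℂ ℂ` with `T_ℓ v = θ_ℓ v` (`θ_ℓ` algebraic integers congruent to integers
`b_ℓ` modulo a maximal ideal `𝔪' ∋ p`) and `U (U v) = v` for the Betti `U_q` gives a nonzero cusp
form `f` with `T_ℓ f = θ''_ℓ f`, `θ''_ℓ ≡ b_ℓ` modulo a maximal ideal `𝔪'' ∋ p`, and
`U_q (U_q f) = f`.

Proof: `v = P(u) - conj ∘ P(w)` (Eichler--Shimura, S21); injectivity of
`(u, w) ↦ P(u) - conj ∘ P(w)` splits all equations; if `u = 0` one uses `w`, the complex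
conjugate eigenvalues and the complex conjugate maximal ideal.

The Betti `U_q` enters only through two hypotheses: compatibility with the period map and
naturality with respect to complex conjugation of the coefficients.
-/

set_option autoImplicit false

namespace Fermat.Agent.S41.Betti.Transport

open CongruenceSubgroup ModularCurve ModularCurve.Period Fermat.Agent.S21 Fermat.Agent.S29.Betti
open Fermat.Agent.S41.Betti.HeckeCommute
open scoped MatrixGroups ComplexConjugate

noncomputable section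

/-! ### complex conjugation on the algebraic integers -/

/-- complex conjugation on the ring of algebraic integers. -/
def conjInt : integralClosure ℤ ℂ →+* integralClosure ℤ ℂ :=
  ((starRingEnd ℂ : ℂ →+* ℂ).comp (integralClosure ℤ ℂ).val.toRingHom).codRestrict
    (integralClosure ℤ ℂ) (fun x => by
      have hx : IsIntegral ℤ (x : ℂ) := x.2
      exact hx.map ((starRingEnd ℂ : ℂ →+* ℂ).toIntAlgHom))

@[simp] theorem conjInt_coe (x : integralClosure ℤ ℂ) :
    ((conjInt x : integralClosure ℤ ℂ) : ℂ) = conj (x : ℂ) := rfl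

@[simp] theorem conjInt_conjInt (x : integralClosure ℤ ℂ) : conjInt (conjInt x) = x := by
  apply Subtype.ext
  rw [conjInt_coe, conjInt_coe, Complex.conj_conj]

theorem conjInt_surjective : Function.Surjective conjInt := fun x => ⟨conjInt x, conjInt_conjInt x⟩

/-! ### the splitting -/

variable {M : ℕ} [NeZero M]

/-- injectivity of `(u, w) ↦ P(u) - conj ∘ P(w)`. -/
theorem eq_zero_of_periods_eq_zero (u w : CuspForm (Gamma0 M) 2)
    (h : periodMap M u - conjAdd.comp (periodMap M w) = 0) : u = 0 ∧ w = 0 := by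
  obtain ⟨p, hp⟩ := conjPair_surjective (N := M) (u, w)
  have h0 : periodHomPair M p = 0 := by
    refine AddMonoidHom.ext fun γ => ?_
    rw [periodHomPair_apply_conjPair (existsPeriodMapLinear M)
      (fun f => ⟨_, hasEquivariantPrimitive M f⟩) p γ, hp]
    exact DFunLike.congr_fun h γ
  have hp0 : p = 0 := periodHomPair_injective M (by rw [h0, map_zero])
  subst hp0
  have h1 : conjPair M (0 : CuspForm (Gamma0 M) 2 × CuspForm (Gamma0 M) 2) = (0, 0) := by
    show (_, _) = _
    simp [conjCF_zero]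
  rw [h1] at hp
  exact ⟨(congrArg Prod.fst hp).symm, (congrArg Prod.snd hp).symm⟩

omit [NeZero M] in
/-- scalars pass through `conj ∘ ·` by conjugation. -/
theorem smul_conjAdd_comp (a : ℂ) (c : Additive (Gamma0 M) →+ ℂ) :
    a • conjAdd.comp c = conjAdd.comp (conj a • c) := by
  refine AddMonoidHom.ext fun γ => ?_
  change a * conj (c γ) = conj (conj a * c γ)
  rw [map_mul, Complex.conj_conj]

/-- the two components of an eigen-equation. -/
theorem split_eigen (A : (Additive (Gamma0 M) →+ ℂ) →+ (Additive (Gamma0 M) →+ ℂ))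
    (a : Module.End ℂ (CuspForm (Gamma0 M) 2))
    (hA : ∀ f, A (periodMap M f) = periodMap M (a f))
    (hAc : ∀ c, A (conjAdd.comp c) = conjAdd.comp (A c))
    (u w : CuspForm (Gamma0 M) 2) (t : ℂ)
    (h : A (periodMap M u - conjAdd.comp (periodMap M w)) =
      t • (periodMap M u - conjAdd.comp (periodMap M w))) :
    a u = t • u ∧ a w = conj t • w := by
  have h1 : periodMap M (a u - t • u) - conjAdd.comp (periodMap M (a w - conj t • w)) = 0 := by
    have e1 : periodMap M (a u - t • u) = periodMap M (a u) - t • periodMap M u := by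
      rw [← periodMapLinear_apply, map_sub, map_smul, periodMapLinear_apply,
        periodMapLinear_apply]
    have e2 : periodMap M (a w - conj t • w) = periodMap M (a w) - conj t • periodMap M w := by
      rw [← periodMapLinear_apply, map_sub, map_smul, periodMapLinear_apply,
        periodMapLinear_apply]
    have e3 : conjAdd.comp (periodMap M (a w) - conj t • periodMap M w) =
        conjAdd.comp (periodMap M (a w)) - t • conjAdd.comp (periodMap M w) := by
      rw [smul_conjAdd_comp]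
      refine AddMonoidHom.ext fun γ => ?_
      simp only [AddMonoidHom.comp_apply, AddMonoidHom.sub_apply, map_sub]
    rw [map_sub, hA, hAc, hA, smul_sub] at h
    rw [e1, e2, e3]
    have := sub_eq_zero.mpr h
    rw [← this]
    abel
  obtain ⟨h2, h3⟩ := eq_zero_of_periods_eq_zero _ _ h1
  exact ⟨sub_eq_zero.mp h2, sub_eq_zero.mp h3⟩

/-- **(V6).** -/
theorem exists_cuspForm_of_complex_vector {q : ℕ} (hqM : q ∣ M)
    (A : (Additive (Gamma0 M) →+ ℂ) →+ (Additive (Gamma0 M) →+ ℂ))
    (hA : ∀ f, A (periodMap M f) = periodMap M (CuspForm.heckeULin 2 hqM f))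
    (hAc : ∀ c, A (conjAdd.comp c) = conjAdd.comp (A c))
    {ι : Type*} (g : ι → GoodPrime M) (p : ℕ) (b : ι → ℤ)
    (v : XMod M ℂ ℂ) (hv : v ≠ 0) (θ : ι → integralClosure ℤ ℂ)
    (𝔪' : Ideal (integralClosure ℤ ℂ)) (hmax : 𝔪'.IsMaximal)
    (hp : (p : integralClosure ℤ ℂ) ∈ 𝔪')
    (hT : ∀ i, heckeX (g i).2 ℂ ℂ v = ((θ i : integralClosure ℤ ℂ) : ℂ) • v)
    (hcong : ∀ i, θ i - ((b i : ℤ) : integralClosure ℤ ℂ) ∈ 𝔪')
    (hU : A (A (v : Additive (Gamma0 M) →+ ℂ)) = (v : Additive (Gamma0 M) →+ ℂ)) :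
    ∃ (f : CuspForm (Gamma0 M) 2) (θ'' : ι → integralClosure ℤ ℂ)
      (𝔪'' : Ideal (integralClosure ℤ ℂ)),
      f ≠ 0 ∧ 𝔪''.IsMaximal ∧ (p : integralClosure ℤ ℂ) ∈ 𝔪'' ∧
      (∀ i, CuspForm.heckeTLin 2 (g i).1.2 (g i).2 f = ((θ'' i : integralClosure ℤ ℂ) : ℂ) • f ∧
        θ'' i - ((b i : ℤ) : integralClosure ℤ ℂ) ∈ 𝔪'') ∧
      CuspForm.heckeULin 2 hqM (CuspForm.heckeULin 2 hqM f) = f := by
  classical
  obtain ⟨u, w, huw⟩ := exists_periods_of_mem_parabolicHoms (v : Additive (Gamma0 M) →+ ℂ)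
    (mem_parabolicHoms_of_mem_XMod v.2)
  -- the `T_ℓ`
  have hTs : ∀ i, CuspForm.heckeTLin 2 (g i).1.2 (g i).2 u = ((θ i : integralClosure ℤ ℂ) : ℂ) • u ∧
      CuspForm.heckeTLin 2 (g i).1.2 (g i).2 w = conj ((θ i : integralClosure ℤ ℂ) : ℂ) • w := by
    intro i
    apply split_eigen (heckeHom (g i).2 ℂ) (CuspForm.heckeTLin 2 (g i).1.2 (g i).2)
      (fun f => (periodMap_heckeTLin (g i).1.2 (g i).2 f).symm)
      (fun c => heckeHom_comp (g i).2 ℂ conjAdd c)
    rw [← huw]
    have := congrArg (fun x : XMod M ℂ ℂ => (x : Additive (Gamma0 M) →+ ℂ)) (hT i)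
    exact this
  -- `U ∘ U`
  have hUs : CuspForm.heckeULin 2 hqM (CuspForm.heckeULin 2 hqM u) = u ∧
      CuspForm.heckeULin 2 hqM (CuspForm.heckeULin 2 hqM w) = w := by
    have h := split_eigen (A.comp A) (CuspForm.heckeULin 2 hqM * CuspForm.heckeULin 2 hqM)
      (fun f => by
        rw [AddMonoidHom.comp_apply, hA, hA]; rfl)
      (fun c => by
        rw [AddMonoidHom.comp_apply, hAc, hAc]; rfl) u w 1
      (by rw [← huw, one_smul]; exact hU)
    rw [map_one, one_smul, one_smul] at h
    exact h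
  have hne : u ≠ 0 ∨ w ≠ 0 := by
    by_contra hcon
    have hu0 : u = 0 := by
      by_contra h
      exact hcon (Or.inl h)
    have hw0 : w = 0 := by
      by_contra h
      exact hcon (Or.inr h)
    apply hv
    apply Subtype.ext
    rw [huw, hu0, hw0]
    have : periodMap M (0 : CuspForm (Gamma0 M) 2) = 0 := by
      rw [← periodMapLinear_apply, map_zero]
    rw [this]
    refine AddMonoidHom.ext fun γ => ?_
    simp
  rcases hne with hu | hw
  · exact ⟨u, θ, 𝔪', hu, hmax, hp, fun i => ⟨(hTs i).1, hcong i⟩, hUs.1⟩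
  · refine ⟨w, fun i => conjInt (θ i), 𝔪'.comap conjInt, hw,
      Ideal.comap_isMaximal_of_surjective conjInt conjInt_surjective, ?_,
      fun i => ⟨(hTs i).2, ?_⟩, hUs.2⟩
    · rw [Ideal.mem_comap, map_natCast]
      exact hp
    · rw [Ideal.mem_comap, map_sub, conjInt_conjInt, map_intCast]
      exact hcong i

end

end Fermat.Agent.S41.Betti.Transport
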