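import Fermat.Agent.S29.Betti.EigenSupport
import Fermat.Agent.S16.Lower.LatticeRank

/-!
# S41 (V1a): the integral lattice `XMod M ℤ ℤ` inside `XMod M ℂ ℂ`   (helper23)

* `instFinite`, `instFree` : `XMod M ℤ ℤ` is a finitely generated free `ℤ`-module;
* `XMod_complex_eq` : `XMod M ℂ ℂ = parabolicHoms ℂ (Gamma0 M) ℂ`;
* `castX : XMod M ℤ ℤ →ₗ[ℤ] XMod M ℂ ℂ` (values cast to `ℂ`), injective, Hecke equivariant;
* `latX M := range castX`, `latX_fg`, **`span_latX : span ℂ (latX M) = ⊤`**.
-/

set_option autoImplicit false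

namespace Fermat.Agent.S41.Betti.LatticeSpan

open CongruenceSubgroup ModularCurve ModularCurve.Period
open Fermat.Agent.S29.Betti Fermat.Agent.S23
open scoped MatrixGroups

noncomputable section

variable (M : ℕ) [NeZero M]

/-! ### finite generation -/

theorem finite_hom_int : Module.Finite ℤ (Additive (Gamma0 M) →+ ℤ) := by
  classical
  have hfg : Group.FG (Gamma0 M) := (Group.fg_iff_subgroup_fg _).mpr (Fermat.Agent.S22.gamma0_fg M)
  obtain ⟨S, hS⟩ := Group.fg_def.mp hfg
  let ev : (Additive (Gamma0 M) →+ ℤ) →ₗ[ℤ] (S → ℤ) :=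
    { toFun := fun c s => c (Additive.ofMul (s : Gamma0 M))
      map_add' := fun c d => rfl
      map_smul' := fun a c => rfl }
  have hinj : Function.Injective ev := by
    intro c d hcd
    have h1 : ∀ s ∈ (S : Set (Gamma0 M)), c (Additive.ofMul s) = d (Additive.ofMul s) :=
      fun s hs => congrFun hcd ⟨s, hs⟩
    -- the two homs agree on a generating set
    let E : Subgroup (Gamma0 M) :=
      { carrier := {γ | c (Additive.ofMul γ) = d (Additive.ofMul γ)}
        mul_mem' := by
          intro a b ha hb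
          show c (Additive.ofMul (a * b)) = d (Additive.ofMul (a * b))
          rw [ofMul_mul, map_add, map_add, ha, hb]
        one_mem' := by
          show c (Additive.ofMul 1) = d (Additive.ofMul 1)
          rw [ofMul_one, map_zero, map_zero]
        inv_mem' := by
          intro a ha
          show c (Additive.ofMul a⁻¹) = d (Additive.ofMul a⁻¹)
          rw [ofMul_inv, map_neg, map_neg, ha] }
    have hE : E = ⊤ := by
      rw [eq_top_iff, ← hS, Subgroup.closure_le]
      intro s hs
      exact h1 s hs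
    ext γ
    have : Additive.toMul γ ∈ E := by rw [hE]; exact Subgroup.mem_top _
    exact this
  exact Module.Finite.of_injective ev hinj

instance instFinite : Module.Finite ℤ (XMod M ℤ ℤ) := by
  have := finite_hom_int M
  exact Module.Finite.of_injective (XMod M ℤ ℤ).subtype (Submodule.injective_subtype _)

instance instFree : Module.Free ℤ (XMod M ℤ ℤ) := by
  have : IsAddTorsionFree (XMod M ℤ ℤ) := by
    refine ⟨fun n hn a b hab => ?_⟩
    apply Subtype.ext
    refine AddMonoidHom.ext fun γ => ?_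
    have h1 := congrArg (fun c : XMod M ℤ ℤ => (c : Additive (Gamma0 M) →+ ℤ) γ) hab
    simp only [Submodule.coe_smul_of_tower, AddMonoidHom.coe_smul, Pi.smul_apply, smul_eq_mul] at h1
    exact mul_left_cancel₀ (Nat.cast_ne_zero.mpr hn) h1
  infer_instance

/-! ### complex coefficients: `XMod = parabolicHoms` -/

theorem XMod_complex_eq : XMod M ℂ ℂ = parabolicHoms ℂ (Gamma0 M) ℂ := by
  ext c
  rw [mem_XMod_iff, mem_parabolicHoms_iff]
  constructor
  · intro h γ hγ
    exact h γ (Or.inl hγ)
  · intro h γ hγ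
    rcases hγ with hγ | hγ
    · exact h γ hγ
    · exact apply_eq_zero_of_isOfFinOrder M c hγ

/-! ### the cast -/

/-- values cast to `ℂ`. -/
def castHom : (Additive (Gamma0 M) →+ ℤ) →ₗ[ℤ] (Additive (Gamma0 M) →+ ℂ) where
  toFun c := (Int.castAddHom ℂ).comp c
  map_add' c d := by ext γ; simp
  map_smul' a c := by ext γ; simp

@[simp] theorem castHom_apply (c : Additive (Gamma0 M) →+ ℤ) (γ : Additive (Gamma0 M)) :
    castHom M c γ = ((c γ : ℤ) : ℂ) := rfl

theorem castHom_injective : Function.Injective (castHom M) := by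
  intro c d h
  refine AddMonoidHom.ext fun γ => ?_
  have h1 := DFunLike.congr_fun h γ
  rw [castHom_apply, castHom_apply] at h1
  exact_mod_cast h1

theorem castHom_mem {c : Additive (Gamma0 M) →+ ℤ} (hc : c ∈ XMod M ℤ ℤ) :
    castHom M c ∈ XMod M ℂ ℂ := by
  intro γ hγ
  rw [castHom_apply, hc γ hγ, Int.cast_zero]

/-- the cast on the admissible characters. -/
def castX : XMod M ℤ ℤ →ₗ[ℤ] XMod M ℂ ℂ where
  toFun c := ⟨castHom M c, castHom_mem M c.2⟩
  map_add' c d := by apply Subtype.ext; exact map_add (castHom M) _ _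
  map_smul' a c := by apply Subtype.ext; exact map_smul (castHom M) a _

@[simp] theorem castX_coe (c : XMod M ℤ ℤ) :
    ((castX M c : XMod M ℂ ℂ) : Additive (Gamma0 M) →+ ℂ) = castHom M c := rfl

theorem castX_apply (c : XMod M ℤ ℤ) (γ : Additive (Gamma0 M)) :
    ((castX M c : XMod M ℂ ℂ) : Additive (Gamma0 M) →+ ℂ) γ =
      (((c : Additive (Gamma0 M) →+ ℤ) γ : ℤ) : ℂ) := rfl

theorem castX_injective : Function.Injective (castX M) := by
  intro c d h
  apply Subtype.ext
  exact castHom_injective M (congrArg Subtype.val h)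

/-- the cast commutes with the Hecke operators. -/
theorem castX_heckeX {ℓ : ℕ} [Fact ℓ.Prime] (hℓM : ¬ ℓ ∣ M) (c : XMod M ℤ ℤ) :
    castX M (heckeX hℓM ℤ ℤ c) = heckeX hℓM ℂ ℂ (castX M c) := by
  apply Subtype.ext
  rw [castX_coe, heckeX_coe, heckeX_coe, castX_coe]
  exact (heckeHom_comp hℓM ℤ (Int.castAddHom ℂ) (c : Additive (Gamma0 M) →+ ℤ)).symm

/-- the integral lattice in `XMod M ℂ ℂ`. -/
def latX : Submodule ℤ (XMod M ℂ ℂ) := LinearMap.range (castX M)

theorem castX_mem_latX (c : XMod M ℤ ℤ) : castX M c ∈ latX M := ⟨c, rfl⟩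

theorem latX_fg : (latX M).FG := by
  unfold latX
  rw [LinearMap.range_eq_map]
  exact (Module.Finite.fg_top (R := ℤ) (M := XMod M ℤ ℤ)).map _

theorem heckeX_mem_latX {ℓ : ℕ} [Fact ℓ.Prime] (hℓM : ¬ ℓ ∣ M) {x : XMod M ℂ ℂ}
    (hx : x ∈ latX M) : heckeX hℓM ℂ ℂ x ∈ latX M := by
  obtain ⟨c, rfl⟩ := hx
  exact ⟨heckeX hℓM ℤ ℤ c, castX_heckeX M hℓM c⟩

/-! ### the lattice spans -/

/-- the coordinate characters of the period lattice. -/
def coordHom (i : Fin (Module.finrank ℤ (perLattice M))) : Additive (Gamma0 M) →+ ℤ :=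
  ((LinearMap.proj i : (Fin (Module.finrank ℤ (perLattice M)) → ℤ) →ₗ[ℤ] ℤ).toAddMonoidHom.comp
    (((Module.finBasis ℤ (perLattice M)).equivFun :
      perLattice M →ₗ[ℤ] (Fin (Module.finrank ℤ (perLattice M)) → ℤ)).toAddMonoidHom)).comp
    (perHomL M)

theorem coordHom_apply (i : Fin (Module.finrank ℤ (perLattice M))) (γ : Additive (Gamma0 M)) :
    coordHom M i γ = (Module.finBasis ℤ (perLattice M)).repr (perHomL M γ) i := rfl

theorem perHomL_eq_zero_of_adm (γ : Gamma0 M)
    (hγ : ((γ : SL(2, ℤ)) : Matrix (Fin 2) (Fin 2) ℤ).trace ^ 2 = 4 ∨ IsOfFinOrder γ) :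
    perHomL M (Additive.ofMul γ) = 0 := by
  rcases hγ with hγ | hγ
  · apply Subtype.ext
    rw [perHomL_coe]
    exact perFun_eq_zero_of_trace M γ hγ
  · obtain ⟨n, hn, h⟩ := hγ.exists_pow_eq_one
    have h1 : perHomL M (Additive.ofMul (γ ^ n)) = 0 := by rw [h, ofMul_one, map_zero]
    rw [ofMul_pow, map_nsmul] at h1
    -- `perLattice` sits in a complex vector space
    apply Subtype.ext
    have h2 := congrArg (fun x : perLattice M =>
      (x : Module.Dual ℂ (CuspForm (Gamma0 M) 2))) h1
    simp only [Submodule.coe_smul_of_tower, ZeroMemClass.coe_zero] at h2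
    have h3 : ((n : ℂ)) • ((perHomL M (Additive.ofMul γ) : perLattice M) :
        Module.Dual ℂ (CuspForm (Gamma0 M) 2)) = 0 := by
      rw [Nat.cast_smul_eq_nsmul]; exact h2
    exact (smul_eq_zero.mp h3).resolve_left (Nat.cast_ne_zero.mpr hn.ne')

theorem coordHom_mem (i : Fin (Module.finrank ℤ (perLattice M))) :
    coordHom M i ∈ XMod M ℤ ℤ := by
  intro γ hγ
  rw [coordHom_apply, perHomL_eq_zero_of_adm M γ hγ]
  simp

/-- **The integral lattice spans `XMod M ℂ ℂ` over `ℂ`.** -/
theorem span_latX : Submodule.span ℂ (latX M : Set (XMod M ℂ ℂ)) = ⊤ := by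
  classical
  have hfdS := Fermat.Agent.S16.Lower.LatticeRank.finiteDimensional_cuspForm M
  obtain ⟨hinj, hrange⟩ := Fermat.Agent.S21.result M
  set r := Module.finrank ℤ (perLattice M) with hr
  let b := Module.finBasis ℤ (perLattice M)
  -- the coordinate characters, cast to `ℂ`, inside `XMod M ℂ ℂ`
  let ψ : Fin r → XMod M ℂ ℂ := fun i => castX M ⟨coordHom M i, coordHom_mem M i⟩
  have hψ_apply : ∀ i γ, ((ψ i : XMod M ℂ ℂ) : Additive (Gamma0 M) →+ ℂ) γ =
      ((b.repr (perHomL M γ) i : ℤ) : ℂ) := fun i γ => rfl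
  have hli : LinearIndependent ℂ ψ := by
    rw [Fintype.linearIndependent_iff]
    intro c hc j
    let Λ : perLattice M →ₗ[ℤ] ℂ :=
      { toFun := fun ξ => ∑ i, c i * ((b.repr ξ i : ℤ) : ℂ)
        map_add' := by
          intro x y
          simp only [map_add, Finsupp.coe_add, Pi.add_apply, Int.cast_add, mul_add,
            Finset.sum_add_distrib]
        map_smul' := by
          intro a x
          simp only [map_smul, Finsupp.coe_smul, Pi.smul_apply, smul_eq_mul, Int.cast_mul,
            eq_intCast, Int.cast_eq, zsmul_eq_mul, Finset.mul_sum]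
          refine Finset.sum_congr rfl fun i _ => ?_
          ring }
    have hΛ0 : ∀ γ, Λ (perHomL M γ) = 0 := by
      intro γ
      have h1 := congrArg (fun φ : XMod M ℂ ℂ => (φ : Additive (Gamma0 M) →+ ℂ) γ) hc
      simp only [AddSubmonoidClass.coe_finsetSum, Submodule.coe_smul_of_tower,
        AddMonoidHom.finsetSum_apply, AddMonoidHom.smul_apply, smul_eq_mul,
        ZeroMemClass.coe_zero, AddMonoidHom.zero_apply, hψ_apply] at h1
      exact h1
    have hΛ : Λ = 0 := by
      apply LinearMap.ext_on (span_range_perHomL M)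
      rintro _ ⟨γ, rfl⟩
      rw [hΛ0, LinearMap.zero_apply]
    have := congrArg (fun φ : perLattice M →ₗ[ℤ] ℂ => φ (b j)) hΛ
    simp only [LinearMap.zero_apply] at this
    have h2 : Λ (b j) = c j := by
      show ∑ i, c i * ((b.repr (b j) i : ℤ) : ℂ) = c j
      rw [b.repr_self]
      simp [Finsupp.single_apply]
    rw [h2] at this
    exact this
  -- dimension count
  have hfdX : FiniteDimensional ℂ (XMod M ℂ ℂ) := by
    rw [XMod_complex_eq]
    exact (Fermat.Agent.S21.finrank_parabolicHoms_Gamma0_le M).1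
  have hdim : Module.finrank ℂ (XMod M ℂ ℂ) = r := by
    rw [XMod_complex_eq, ← hrange, LinearMap.finrank_range_of_inj hinj, Module.finrank_prod,
      hr, Fermat.Agent.S16.Lower.LatticeRank.finrank_perLattice, two_mul]
  have hspanψ : Submodule.span ℂ (Set.range ψ) = ⊤ := by
    apply hli.span_eq_top_of_card_eq_finrank'
    rw [Fintype.card_fin, hdim]
  rw [eq_top_iff, ← hspanψ]
  apply Submodule.span_mono
  rintro _ ⟨i, rfl⟩
  exact castX_mem_latX M _

end

end Fermat.Agent.S41.Betti.LatticeSpan
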