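import Fermat.Agent.S29.Betti.PeriodHecke
import Fermat.Agent.S41.Degen.IStar
import Fermat.Agent.S41.Betti.LatticeSpan

/-!
# S41, (V6 input): the operator `U_q` on the Betti model `Hom(Γ₀(M), A)` for `q ∣ M`

`U_q` has the representatives `heckeMatrix q j = [[1, j],[0, q]]` (`j : ZMod q`); for
`γ ∈ Γ₀(M)` (`q ∣ M`) one has `δ_x γ = γ'_x δ_{σ x}` with `σ = affinePerm γ` (Prelude) and
`γ'_x ∈ Γ₀(M)`.

* `actU`, `stepU`, `stepU_rel`, `stepU_mul`, `stepU_one` : the permutation and the cocycle;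
* `uDatum hqM : Datum (iGL M) (iGL M) (ZMod q)` : the coset datum (`uDatum_rep`), so that all of
  `Degen.CosetOp` / `Degen.TraceUWCor` applies;
* `heckeUHom hqM A` : the operator, `heckeUHom_apply`, `heckeUHom_comp` (naturality in the
  coefficients), `isAdmChar_heckeUHom`;
* `periodMap_heckeULin` : `periodMap M (U_q f) = U_q (periodMap M f)`;
* `heckeUX hqM R A` : the operator on `XMod M R A`, `castX_heckeUX`.
-/

set_option autoImplicit false

namespace Fermat.Agent.S41.Betti.UOp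

open CongruenceSubgroup Matrix.SpecialLinearGroup ModularForm Function
open ModularCurve ModularCurve.Period
open Fermat.Agent.S29.Betti Fermat.Agent.S41.Degen Fermat.Agent.S41.Degen.Cor
open Fermat.Agent.S41.Degen.CosetOp Fermat.Agent.S41.Betti.LatticeSpan
open P2MW.S_ModularForm_heckeT_slash_eq_self_of_mem_Gamma0.ModularForm.HeckeSlashInvariance
open scoped MatrixGroups

noncomputable section

variable {M q : ℕ} (hqM : q ∣ M)

/-! ### The permutation -/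

include hqM in
theorem dvd_q_of_mem (γ : Gamma0 M) : (q : ℤ) ∣ (γ : SL(2, ℤ)) 1 0 :=
  (Int.natCast_dvd_natCast.mpr hqM).trans (dvd_of_mem_Gamma0 γ)

include hqM in
theorem cast_eq_zero_of_mem (γ : Gamma0 M) : (((γ : SL(2, ℤ)) 1 0 : ℤ) : ZMod q) = 0 :=
  (ZMod.intCast_zmod_eq_zero_iff_dvd _ _).mpr (dvd_q_of_mem hqM γ)

/-- the permutation `x ↦ d (b + d x)` of `ZMod q` attached to `γ ∈ Γ₀(M)`, `q ∣ M`. -/
def actU (γ : Gamma0 M) : Equiv.Perm (ZMod q) :=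
  affinePerm (γ : SL(2, ℤ)) (cast_eq_zero_of_mem hqM γ)

theorem actU_apply (γ : Gamma0 M) (x : ZMod q) :
    actU hqM γ x = (((γ : SL(2, ℤ)) 1 1 : ℤ) : ZMod q) *
      ((((γ : SL(2, ℤ)) 0 1 : ℤ) : ZMod q) + (((γ : SL(2, ℤ)) 1 1 : ℤ) : ZMod q) * x) := rfl

theorem actU_one (x : ZMod q) : actU hqM (1 : Gamma0 M) x = x := by
  rw [actU_apply]
  simp

theorem actU_mul (γ₁ γ₂ : Gamma0 M) (x : ZMod q) :
    actU hqM (γ₁ * γ₂) x = actU hqM γ₂ (actU hqM γ₁ x) := by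
  have h1 := cast_eq_zero_of_mem hqM γ₁
  have hu := unit_of_apply_one_zero_eq_zero (γ₁ : SL(2, ℤ)) h1
  rw [actU_apply, actU_apply, actU_apply]
  have e01 : ((γ₁ * γ₂ : Gamma0 M) : SL(2, ℤ)) 0 1 =
      (γ₁ : SL(2, ℤ)) 0 0 * (γ₂ : SL(2, ℤ)) 0 1 + (γ₁ : SL(2, ℤ)) 0 1 * (γ₂ : SL(2, ℤ)) 1 1 := by
    rw [Subgroup.coe_mul, Matrix.SpecialLinearGroup.coe_mul, Matrix.mul_apply, Fin.sum_univ_two]
  have e11 : ((γ₁ * γ₂ : Gamma0 M) : SL(2, ℤ)) 1 1 =
      (γ₁ : SL(2, ℤ)) 1 0 * (γ₂ : SL(2, ℤ)) 0 1 + (γ₁ : SL(2, ℤ)) 1 1 * (γ₂ : SL(2, ℤ)) 1 1 := by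
    rw [Subgroup.coe_mul, Matrix.SpecialLinearGroup.coe_mul, Matrix.mul_apply, Fin.sum_univ_two]
  rw [e01, e11]
  push_cast
  rw [h1]
  linear_combination ((((γ₂ : SL(2, ℤ)) 1 1 : ℤ) : ZMod q) *
    (((γ₂ : SL(2, ℤ)) 0 1 : ℤ) : ZMod q)) * hu

/-! ### The cocycle -/

variable [NeZero q]

/-- the `γ'_x ∈ SL(2, ℤ)` with `δ_x γ = γ'_x δ_{σ x}`. -/
def stepSLU (γ : Gamma0 M) (x : ZMod q) : SL(2, ℤ) :=
  (heckeMatrix_mul_of_dvd (γ : SL(2, ℤ)) (dvd_q_of_mem hqM γ) x).choose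

theorem stepSLU_one_zero (γ : Gamma0 M) (x : ZMod q) :
    stepSLU hqM γ x 1 0 = q * (γ : SL(2, ℤ)) 1 0 :=
  (heckeMatrix_mul_of_dvd (γ : SL(2, ℤ)) (dvd_q_of_mem hqM γ) x).choose_spec.1

theorem stepSLU_rel (γ : Gamma0 M) (x : ZMod q) :
    heckeMatrix q x.val * mapGL ℝ (γ : SL(2, ℤ)) =
      mapGL ℝ (stepSLU hqM γ x) * heckeMatrix q (actU hqM γ x).val :=
  (heckeMatrix_mul_of_dvd (γ : SL(2, ℤ)) (dvd_q_of_mem hqM γ) x).choose_spec.2

theorem stepSLU_mem (γ : Gamma0 M) (x : ZMod q) : stepSLU hqM γ x ∈ Gamma0 M := by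
  apply mem_Gamma0_of_dvd
  rw [stepSLU_one_zero]
  exact Dvd.dvd.mul_left (dvd_of_mem_Gamma0 γ) _

/-- the step `γ'_x` as an element of `Γ₀(M)`. -/
def stepU (γ : Gamma0 M) (x : ZMod q) : Gamma0 M := ⟨stepSLU hqM γ x, stepSLU_mem hqM γ x⟩

@[simp] theorem stepU_coe (γ : Gamma0 M) (x : ZMod q) :
    ((stepU hqM γ x : Gamma0 M) : SL(2, ℤ)) = stepSLU hqM γ x := rfl

/-- **the defining relation** `δ_x γ = γ'_x δ_{σ x}`. -/
theorem stepU_rel (γ : Gamma0 M) (x : ZMod q) :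
    heckeMatrix q x.val * mapGL ℝ (γ : SL(2, ℤ)) =
      mapGL ℝ ((stepU hqM γ x : Gamma0 M) : SL(2, ℤ)) * heckeMatrix q (actU hqM γ x).val :=
  stepSLU_rel hqM γ x

theorem stepU_unique {γ : Gamma0 M} {x : ZMod q} {g : SL(2, ℤ)}
    (h : heckeMatrix q x.val * mapGL ℝ (γ : SL(2, ℤ)) =
      mapGL ℝ g * heckeMatrix q (actU hqM γ x).val) : g = stepSLU hqM γ x := by
  have h2 := stepSLU_rel hqM γ x
  rw [h] at h2
  exact mapGL_injective (mul_right_cancel h2)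

/-! ### The coset datum -/

/-- `U_q` on `Γ₀(M)` (`q ∣ M`) as a coset datum, with representatives `heckeMatrix q j`. -/
def uDatum : Datum (iGL M) (iGL M) (ZMod q) where
  rep j := heckeMatrix q j.val
  act γ x := actU hqM γ x
  step γ x := stepU hqM γ x
  rel γ x := stepSLU_rel hqM γ x
  act_one x := actU_one hqM x
  act_mul γ₁ γ₂ x := actU_mul hqM γ₁ γ₂ x

@[simp] theorem uDatum_rep (j : ZMod q) : (uDatum hqM).rep j = heckeMatrix q j.val := rfl

@[simp] theorem uDatum_act (γ : Gamma0 M) (x : ZMod q) :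
    (uDatum hqM).act γ x = actU hqM γ x := rfl

@[simp] theorem uDatum_step (γ : Gamma0 M) (x : ZMod q) :
    (uDatum hqM).step γ x = stepU hqM γ x := rfl

/-- the cocycle relation. -/
theorem stepU_mul (γ₁ γ₂ : Gamma0 M) (x : ZMod q) :
    stepU hqM (γ₁ * γ₂) x = stepU hqM γ₁ x * stepU hqM γ₂ (actU hqM γ₁ x) :=
  (uDatum hqM).step_mul (iGL_injective M) γ₁ γ₂ x

theorem stepU_one (x : ZMod q) : stepU hqM (1 : Gamma0 M) x = 1 :=
  (uDatum hqM).step_one (iGL_injective M) x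

/-! ### The operator -/

/-- **`U_q` on `Hom(Γ₀(M), A)`**: `(U_q c)(γ) = ∑_x c(γ'_x)`. -/
def heckeUHom (A : Type*) [AddCommGroup A] :
    (Additive (Gamma0 M) →+ A) →+ (Additive (Gamma0 M) →+ A) :=
  (uDatum hqM).op (iGL_injective M) A

theorem heckeUHom_eq_op (A : Type*) [AddCommGroup A] :
    heckeUHom hqM A = (uDatum hqM).op (iGL_injective M) A := rfl

theorem heckeUHom_apply (A : Type*) [AddCommGroup A] (c : Additive (Gamma0 M) →+ A)
    (γ : Gamma0 M) :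
    heckeUHom hqM A c (Additive.ofMul γ) = ∑ x : ZMod q, c (Additive.ofMul (stepU hqM γ x)) :=
  rfl

/-- naturality in the coefficients. -/
theorem heckeUHom_comp (A : Type*) [AddCommGroup A] {A' : Type*} [AddCommGroup A'] (φ : A →+ A')
    (c : Additive (Gamma0 M) →+ A) :
    heckeUHom hqM A' (φ.comp c) = φ.comp (heckeUHom hqM A c) :=
  (uDatum hqM).op_comp_coeff (iGL_injective M) A φ c

/-- `U_q` preserves admissible characters, for every coefficient group. -/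
theorem isAdmChar_heckeUHom {A : Type*} [AddCommGroup A] {c : Additive (Gamma0 M) →+ A}
    (hc : IsAdmChar c) : IsAdmChar (heckeUHom hqM A c) :=
  isAdmChar_op (uDatum hqM) hc

/-- **The period map is `U_q`-equivariant.** -/
theorem periodMap_heckeULin [NeZero M] (f : CuspForm (Gamma0 M) 2) :
    periodMap M (CuspForm.heckeULin 2 hqM f) = heckeUHom hqM ℂ (periodMap M f) := by
  refine AddMonoidHom.ext fun γ => ?_
  obtain ⟨γ, rfl⟩ := Additive.ofMul.surjective γ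
  have h := Fermat.Agent.S16.Lower.perFun_comp_eq_sum M (CuspForm.heckeULin 2 hqM) γ
    (fun x => stepU hqM γ x)
    (fun x => heckeMatrix q (actU hqM γ x).val)
    (fun f => Fermat.Agent.S16.Lower.periodPoly_heckeU_explicit 0 hqM (γ : SL(2, ℤ))
      (cast_eq_zero_of_mem hqM γ) (fun x => stepSLU hqM γ x) (fun x => stepSLU_mem hqM γ x)
      (stepSLU_rel hqM γ) f)
  have h2 := LinearMap.congr_fun h f
  rw [LinearMap.comp_apply, Fermat.Agent.S23.perFun_apply, LinearMap.sum_apply] at h2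
  rw [h2, heckeUHom_apply]
  rfl

/-! ### `XMod` version -/

/-- `U_q` on `XMod M R A`. -/
def heckeUX (R : Type*) [Semiring R] (A : Type*) [AddCommGroup A] [Module R A] :
    XMod M R A →ₗ[R] XMod M R A :=
  opX R A (uDatum hqM)

theorem heckeUX_eq_opX (R : Type*) [Semiring R] (A : Type*) [AddCommGroup A] [Module R A] :
    heckeUX hqM R A = opX R A (uDatum hqM) := rfl

@[simp] theorem heckeUX_coe (R : Type*) [Semiring R] (A : Type*) [AddCommGroup A] [Module R A]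
    (u : XMod M R A) :
    ((heckeUX hqM R A u : XMod M R A) : Additive (Gamma0 M) →+ A) = heckeUHom hqM A u := rfl

/-- the cast `ℤ → ℂ` commutes with `U_q`. -/
theorem castX_heckeUX [NeZero M] (c : XMod M ℤ ℤ) :
    castX M (heckeUX hqM ℤ ℤ c) = heckeUX hqM ℂ ℂ (castX M c) := by
  apply Subtype.ext
  rw [castX_coe, heckeUX_coe, heckeUX_coe, castX_coe]
  exact (heckeUHom_comp hqM ℤ (Int.castAddHom ℂ) (c : Additive (Gamma0 M) →+ ℤ)).symm

end

end Fermat.Agent.S41.Betti.UOp
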