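import Fermat.Agent.S29.Betti.EigenSupport

/-!
# S41 (level raising), V2 glue: reduction of coefficients `ℤ → ZMod p` on the Betti model

* `redX p : XMod M ℤ ℤ →+ XMod M (ZMod p) (ZMod p)` (cast of the values);
* `redX_eq_zero_iff` : its kernel is `p • XMod M ℤ ℤ` (the injection `X_ℤ / p ↪ X_{𝔽_p}`);
* `redX_heckeX` : it commutes with the Betti Hecke operators `heckeX` (`T_ℓ`, `ℓ ∤ M`);
* `redHom_comp` : it commutes with every precomposition (restriction / conjugation maps);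
* `eq_zero_of_pow_sub_of_eigen` : a nilpotent `T - b` has no eigenvector of eigenvalue `a ≠ b`;
* `ihara_int`, `ihara_int_prod` : ABSTRACT import of a mod-`p` Ihara statement ("the kernel of
  `resA + resB` on `X_{𝔽_p}²` contains no eigenvector of `T` with eigenvalue `≠ r₁`") into the
  integral shapes `Ihara` / `IharaD` consumed by `Count.Main.exists_new_eigenvector`.
-/

set_option autoImplicit false

namespace Fermat.Agent.S41.Betti.RedP

open Fermat.Agent.S29.Betti CongruenceSubgroup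
open scoped MatrixGroups

noncomputable section

/-! ### reduction of homs -/

section Red

variable {G : Type*} [AddZeroClass G] (p : ℕ)

/-- reduction of the values modulo `p`. -/
def redHom : (G →+ ℤ) →+ (G →+ ZMod p) :=
  AddMonoidHom.compHom (Int.castAddHom (ZMod p))

@[simp] theorem redHom_apply (c : G →+ ℤ) (g : G) : redHom p c g = ((c g : ℤ) : ZMod p) := rfl

/-- reduction commutes with every precomposition. -/
theorem redHom_comp {G' : Type*} [AddZeroClass G'] (c : G →+ ℤ) (ψ : G' →+ G) :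
    redHom p (c.comp ψ) = (redHom p c).comp ψ := rfl

/-- reduction commutes with finite sums of precompositions. -/
theorem redHom_sum_comp {G' : Type*} [AddZeroClass G'] {ι : Type*} (s : Finset ι)
    (c : G →+ ℤ) (ψ : ι → G' →+ G) :
    redHom p (∑ i ∈ s, c.comp (ψ i)) = ∑ i ∈ s, (redHom p c).comp (ψ i) := by
  rw [map_sum]
  rfl

end Red

/-! ### reduction on the Betti model -/

section XMod

variable {M : ℕ} (p : ℕ)

theorem isAdmChar_comp {A A' : Type*} [AddCommGroup A] [AddCommGroup A'] (φ : A →+ A')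
    {c : Additive (Gamma0 M) →+ A} (hc : IsAdmChar c) : IsAdmChar (φ.comp c) := by
  intro γ hγ
  rw [AddMonoidHom.comp_apply, hc γ hγ, map_zero]

/-- reduction modulo `p` on the Betti model. -/
def redX : XMod M ℤ ℤ →+ XMod M (ZMod p) (ZMod p) where
  toFun c := ⟨redHom p c.1, isAdmChar_comp (Int.castAddHom (ZMod p)) c.2⟩
  map_zero' := by
    apply Subtype.ext
    exact map_zero (redHom p)
  map_add' c d := by
    apply Subtype.ext
    exact map_add (redHom p) c.1 d.1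

@[simp] theorem redX_coe (c : XMod M ℤ ℤ) :
    ((redX p c : XMod M (ZMod p) (ZMod p)) : Additive (Gamma0 M) →+ ZMod p) = redHom p c.1 := rfl

theorem redX_apply (c : XMod M ℤ ℤ) (γ : Additive (Gamma0 M)) :
    (redX p c).1 γ = ((c.1 γ : ℤ) : ZMod p) := rfl

theorem redX_smul (c : XMod M ℤ ℤ) : redX p ((p : ℤ) • c) = 0 := by
  apply Subtype.ext
  ext γ
  change (((p : ℤ) • c).1 γ : ZMod p) = 0
  rw [Submodule.coe_smul, AddMonoidHom.smul_apply, smul_eq_mul, Int.cast_mul, Int.cast_natCast,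
    ZMod.natCast_self, zero_mul]

/-- **the kernel of the reduction is `p • X_ℤ`.** -/
theorem redX_eq_zero_iff (hp : p ≠ 0) (c : XMod M ℤ ℤ) :
    redX p c = 0 ↔ ∃ c' : XMod M ℤ ℤ, c = (p : ℤ) • c' := by
  constructor
  · intro h
    have hdvd : ∀ γ : Additive (Gamma0 M), (p : ℤ) ∣ c.1 γ := by
      intro γ
      have h1 : (redX p c).1 γ = 0 := by rw [h]; rfl
      rw [redX_apply] at h1
      exact (ZMod.intCast_zmod_eq_zero_iff_dvd _ p).1 h1
    have hp0 : (p : ℤ) ≠ 0 := by exact_mod_cast hp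
    let c'hom : Additive (Gamma0 M) →+ ℤ :=
      { toFun := fun γ => c.1 γ / (p : ℤ)
        map_zero' := by rw [map_zero, Int.zero_ediv]
        map_add' := fun γ δ => by
          rw [map_add, Int.add_ediv_of_dvd_left (hdvd γ)] }
    have hadm : IsAdmChar c'hom := by
      intro γ hγ
      change c.1 (Additive.ofMul γ) / (p : ℤ) = 0
      rw [c.2 γ hγ, Int.zero_ediv]
    refine ⟨⟨c'hom, hadm⟩, ?_⟩
    apply Subtype.ext
    ext γ
    change c.1 γ = ((p : ℤ) • (⟨c'hom, hadm⟩ : XMod M ℤ ℤ)).1 γ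
    rw [Submodule.coe_smul, AddMonoidHom.smul_apply, smul_eq_mul]
    exact (Int.mul_ediv_cancel' (hdvd γ)).symm
  · rintro ⟨c', rfl⟩
    exact redX_smul p c'

/-- the reduction commutes with the Betti Hecke operators. -/
theorem redX_heckeX {ℓ : ℕ} [Fact ℓ.Prime] (hℓM : ¬ ℓ ∣ M) (c : XMod M ℤ ℤ) :
    redX p (heckeX hℓM ℤ ℤ c) = heckeX hℓM (ZMod p) (ZMod p) (redX p c) := by
  apply Subtype.ext
  rw [redX_coe, heckeX_coe, heckeX_coe, redX_coe]
  exact (heckeHom_comp hℓM ℤ (Int.castAddHom (ZMod p)) c.1).symm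

/-- every element of `XMod M (ZMod p) (ZMod p)` is killed by `p`. -/
theorem natCast_smul_eq_zero (c : XMod M (ZMod p) (ZMod p)) : (p : ℤ) • c = 0 := by
  apply Subtype.ext
  ext γ
  have h1 : (((p : ℤ) • c : XMod M (ZMod p) (ZMod p)) : Additive (Gamma0 M) →+ ZMod p)
      = (p : ℤ) • (c : Additive (Gamma0 M) →+ ZMod p) := AddSubgroupClass.coe_zsmul c (p : ℤ)
  change (((p : ℤ) • c : XMod M (ZMod p) (ZMod p)) : Additive (Gamma0 M) →+ ZMod p)
    (Additive.ofMul γ) = 0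
  rw [h1, AddMonoidHom.smul_apply, zsmul_eq_mul, Int.cast_natCast, ZMod.natCast_self, zero_mul]

end XMod

/-! ### eigenvectors of nilpotent shifts -/

section Nilp

variable {R : Type*} [CommRing R] {V : Type*} [AddCommGroup V] [Module R V]

theorem pow_sub_smul_apply_of_eigen (f : Module.End R V) (a b : R) (c : V) (h : f c = a • c)
    (n : ℕ) : ((f - b • (1 : Module.End R V)) ^ n) c = (a - b) ^ n • c := by
  induction n with
  | zero => simp
  | succ n ih =>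
    rw [pow_succ', Module.End.mul_apply, ih, map_smul, LinearMap.sub_apply, LinearMap.smul_apply,
      Module.End.one_apply, h, ← sub_smul, smul_smul, pow_succ]

/-- a nilpotent `f - b` has no eigenvector with eigenvalue `a`, `a - b` a unit. -/
theorem eq_zero_of_pow_sub_of_eigen (f : Module.End R V) (a b : R) (hab : IsUnit (a - b)) (c : V)
    (h : f c = a • c) (n : ℕ) (hn : ((f - b • (1 : Module.End R V)) ^ n) c = 0) : c = 0 := by
  rw [pow_sub_smul_apply_of_eigen f a b c h n] at hn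
  have hu : IsUnit ((a - b) ^ n) := hab.pow n
  obtain ⟨u, hu'⟩ := hu
  rw [← hu'] at hn
  have := congrArg (fun v => (↑u⁻¹ : R) • v) hn
  simpa [smul_smul] using this

end Nilp

/-! ### abstract import of the mod-`p` Ihara statement -/

section Ihara

variable {X Y Xp Yp : Type*} [AddCommGroup X] [AddCommGroup Y] [AddCommGroup Xp]
  [AddCommGroup Yp]
  (p : ℕ) [hp : Fact p.Prime]
  (rX : X →+ Xp) (rY : Y →+ Yp)
  (hrX : ∀ x : X, rX x = 0 → ∃ x' : X, x = (p : ℤ) • x')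
  (hXp : ∀ c : Xp, (p : ℤ) • c = 0) (hYp : ∀ c : Yp, (p : ℤ) • c = 0)
  (resA resB : X →+ Y) (resAp resBp : Xp →+ Yp)
  (hA : ∀ x, rY (resA x) = resAp (rX x)) (hB : ∀ x, rY (resB x) = resBp (rX x))
  (T : X →+ X) (Tp : Xp →+ Xp) (hT : ∀ x, rX (T x) = Tp (rX x))
  (θ : ℤ)
  /- the mod-`p` Ihara statement, in "no eigenvector" form -/
  (hIh : ∀ c₁ c₂ : Xp, resAp c₁ + resBp c₂ = 0 → Tp c₁ = θ • c₁ → Tp c₂ = θ • c₂ →
    c₁ = 0 ∧ c₂ = 0)

omit hp in
include hrX hXp hYp hA hB hT hIh in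
/-- **integral Ihara** (componentwise form): if `resA x₁ + resB x₂ ∈ pY` and `x₁, x₂` are
eigenvectors of `T` modulo `p` with eigenvalue `θ`, then `x₁, x₂ ∈ pX`. -/
theorem ihara_int (x₁ x₂ : X) (hU : ∃ z : Y, resA x₁ + resB x₂ = (p : ℤ) • z)
    (h₁ : ∃ w : X, T x₁ = θ • x₁ + (p : ℤ) • w) (h₂ : ∃ w : X, T x₂ = θ • x₂ + (p : ℤ) • w) :
    (∃ w : X, x₁ = (p : ℤ) • w) ∧ ∃ w : X, x₂ = (p : ℤ) • w := by
  obtain ⟨z, hz⟩ := hU
  have h0 : resAp (rX x₁) + resBp (rX x₂) = 0 := by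
    rw [← hA, ← hB, ← map_add, hz, map_zsmul, hYp]
  have e₁ : Tp (rX x₁) = θ • rX x₁ := by
    obtain ⟨w, hw⟩ := h₁
    rw [← hT, hw, map_add, map_zsmul, map_zsmul, hXp, add_zero]
  have e₂ : Tp (rX x₂) = θ • rX x₂ := by
    obtain ⟨w, hw⟩ := h₂
    rw [← hT, hw, map_add, map_zsmul, map_zsmul, hXp, add_zero]
  obtain ⟨z₁, z₂⟩ := hIh _ _ h0 e₁ e₂
  exact ⟨hrX _ z₁, hrX _ z₂⟩

omit hp in
include hrX hXp hYp hA hB hT hIh in
/-- **integral Ihara on `L = X × X`**, in the exact shape of the hypothesis `IharaD` of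
`Count.Main.exists_new_eigenvector` (`ιU = resA ∘ fst + resB ∘ snd`, `TLd = T × T`). -/
theorem ihara_int_prod (x : X × X)
    (hU : ∃ z : Y, (resA.coprod resB) x = (p : ℤ) • z)
    (hx : ∃ w : X × X, (T.prodMap T) x - θ • x = (p : ℤ) • w) :
    ∃ w : X × X, x = (p : ℤ) • w := by
  obtain ⟨w, hw⟩ := hx
  have h₁ : ∃ w' : X, T x.1 = θ • x.1 + (p : ℤ) • w' := by
    refine ⟨w.1, ?_⟩
    have e : (T.prodMap T) x = (T x.1, T x.2) := rfl
    have := congrArg Prod.fst hw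
    rw [e] at this
    simp only [Prod.fst_sub, Prod.smul_fst] at this
    rw [← this]; abel
  have h₂ : ∃ w' : X, T x.2 = θ • x.2 + (p : ℤ) • w' := by
    refine ⟨w.2, ?_⟩
    have e : (T.prodMap T) x = (T x.1, T x.2) := rfl
    have := congrArg Prod.snd hw
    rw [e] at this
    simp only [Prod.snd_sub, Prod.smul_snd] at this
    rw [← this]; abel
  have hU' : ∃ z : Y, resA x.1 + resB x.2 = (p : ℤ) • z := by
    obtain ⟨z, hz⟩ := hU
    exact ⟨z, by rw [← hz, AddMonoidHom.coprod_apply]⟩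
  obtain ⟨⟨w₁, hw₁⟩, ⟨w₂, hw₂⟩⟩ :=
    ihara_int p rX rY hrX hXp hYp resA resB resAp resBp hA hB T Tp hT θ hIh x.1 x.2 hU' h₁ h₂
  exact ⟨(w₁, w₂), Prod.ext hw₁ hw₂⟩

omit hp in
/-- from the nilpotent form of the mod-`p` Ihara statement (`(T_r - r₁)^n` kills the kernel of
`resA + resB`) to the "no eigenvector" form, over a field. -/
theorem noEigen_of_nilpotent {K : Type*} [Field K] {V W : Type*} [AddCommGroup V] [Module K V]
    [AddCommGroup W] (rA rB : V →+ W) (f : Module.End K V) (b a : K) (hab : a ≠ b)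
    (hnil : ∀ c₁ c₂ : V, rA c₁ + rB c₂ = 0 →
      ∃ n : ℕ, ((f - b • (1 : Module.End K V)) ^ n) c₁ = 0 ∧
        ((f - b • (1 : Module.End K V)) ^ n) c₂ = 0)
    (c₁ c₂ : V) (h0 : rA c₁ + rB c₂ = 0) (h₁ : f c₁ = a • c₁) (h₂ : f c₂ = a • c₂) :
    c₁ = 0 ∧ c₂ = 0 := by
  obtain ⟨n, hn₁, hn₂⟩ := hnil c₁ c₂ h0
  have hu : IsUnit (a - b) := (sub_ne_zero.2 hab).isUnit
  exact ⟨eq_zero_of_pow_sub_of_eigen f a b hu c₁ h₁ n hn₁,
    eq_zero_of_pow_sub_of_eigen f a b hu c₂ h₂ n hn₂⟩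

/-- the same with integer eigenvalue `θ` and integer shift `r₁`, `p ∤ θ - r₁`, over `ZMod p`:
exactly the hypothesis `hIh` of `ihara_int`. -/
theorem noEigen_zsmul_of_nilpotent (q : ℕ) [Fact q.Prime] {V W : Type*} [AddCommGroup V]
    [Module (ZMod q) V] [AddCommGroup W] (rA rB : V →+ W) (f : Module.End (ZMod q) V)
    (r₁ θ' : ℤ) (hθ : ¬ (q : ℤ) ∣ θ' - r₁)
    (hnil : ∀ c₁ c₂ : V, rA c₁ + rB c₂ = 0 →
      ∃ n : ℕ, ((f - (r₁ : ZMod q) • (1 : Module.End (ZMod q) V)) ^ n) c₁ = 0 ∧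
        ((f - (r₁ : ZMod q) • (1 : Module.End (ZMod q) V)) ^ n) c₂ = 0)
    (c₁ c₂ : V) (h0 : rA c₁ + rB c₂ = 0) (h₁ : f c₁ = θ' • c₁) (h₂ : f c₂ = θ' • c₂) :
    c₁ = 0 ∧ c₂ = 0 := by
  have hab : (θ' : ZMod q) ≠ (r₁ : ZMod q) := by
    intro h
    apply hθ
    rw [← ZMod.intCast_zmod_eq_zero_iff_dvd, Int.cast_sub, h, sub_self]
  refine noEigen_of_nilpotent rA rB f (r₁ : ZMod q) (θ' : ZMod q) hab hnil c₁ c₂ h0 ?_ ?_
  · rw [h₁, Int.cast_smul_eq_zsmul]
  · rw [h₂, Int.cast_smul_eq_zsmul]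

end Ihara

end

end Fermat.Agent.S41.Betti.RedP
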