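import Fermat.Agent.S41.Betti.NewLift
import Fermat.Agent.S41.Betti.Transport
import Fermat.Agent.S41.Degen.Cor

/-!
# S41 (V5 + V6 composed): from the integral new vector to a `q`-new cusp form (helper16)

The composition `NewLift.exists_complex_new_vector` → `Transport.exists_cuspForm_of_complex_vector`
for `M = N q`, `K = ker α_* ⊓ ker (α_* ∘ W)`, hypothesis-style on the Betti `U_q` over `ℂ`:

* `UA` : an additive operator on `Hom(Γ₀(Nq), ℂ)`;
* `hA` : `UA (P f) = P (U_q f)` (period compatibility);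
* `hAc` : `UA` commutes with complex conjugation of the coefficients;
* `hAs` : `UA` is `ℂ`-homogeneous;
* `hUU` : `UA (UA (castX x)) = castX x` for `x ∈ K`.

The conclusion is verbatim the conclusion of the closed `Prop` `HNewForm` of the V7 interface.
-/

set_option autoImplicit false

namespace Fermat.Agent.S41.Betti.NewFormOf

open CongruenceSubgroup ModularCurve ModularCurve.Period Fermat.Agent.S21 Fermat.Agent.S29.Betti
open Fermat.Agent.S41.Betti.HeckeCommute Fermat.Agent.S41.Betti.LatticeSpan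
open Fermat.Agent.S41.Degen Fermat.Agent.S41.Degen.Cor
open scoped MatrixGroups ComplexConjugate

noncomputable section

section Restrict

variable {M : ℕ} [NeZero M]

/-- the restriction to `XMod M ℂ ℂ` of an operator on `Hom(Γ₀(M), ℂ)` which is natural for the
period map and complex conjugation, and `ℂ`-homogeneous. -/
def restrictX (UA : (Additive (Gamma0 M) →+ ℂ) →+ (Additive (Gamma0 M) →+ ℂ))
    (a : Module.End ℂ (CuspForm (Gamma0 M) 2))
    (hA : ∀ f, UA (periodMap M f) = periodMap M (a f))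
    (hAc : ∀ c, UA (conjAdd.comp c) = conjAdd.comp (UA c))
    (hAs : ∀ (z : ℂ) (c : Additive (Gamma0 M) →+ ℂ), UA (z • c) = z • UA c) :
    Module.End ℂ (XMod M ℂ ℂ) where
  toFun v := ⟨UA (v : Additive (Gamma0 M) →+ ℂ), by
    have h := mem_parabolicHoms_of_natural UA a hA hAc (v : Additive (Gamma0 M) →+ ℂ)
      (mem_parabolicHoms_of_mem_XMod v.2)
    rw [← XMod_complex_eq] at h
    exact h⟩
  map_add' v w := by
    apply Subtype.ext
    change UA ((v : Additive (Gamma0 M) →+ ℂ) + (w : Additive (Gamma0 M) →+ ℂ)) = _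
    rw [map_add]
    rfl
  map_smul' z v := by
    apply Subtype.ext
    change UA (z • (v : Additive (Gamma0 M) →+ ℂ)) = _
    rw [hAs]
    rfl

@[simp] theorem restrictX_coe (UA : (Additive (Gamma0 M) →+ ℂ) →+ (Additive (Gamma0 M) →+ ℂ))
    (a : Module.End ℂ (CuspForm (Gamma0 M) 2))
    (hA : ∀ f, UA (periodMap M f) = periodMap M (a f))
    (hAc : ∀ c, UA (conjAdd.comp c) = conjAdd.comp (UA c))
    (hAs : ∀ (z : ℂ) (c : Additive (Gamma0 M) →+ ℂ), UA (z • c) = z • UA c) (v : XMod M ℂ ℂ) :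
    ((restrictX UA a hA hAc hAs v : XMod M ℂ ℂ) : Additive (Gamma0 M) →+ ℂ) =
      UA (v : Additive (Gamma0 M) →+ ℂ) := rfl

end Restrict

variable {N q : ℕ} [NeZero N] [Fact q.Prime] [NeZero (N * q)]

/-- the lattice `K = ker α_* ⊓ ker (α_* ∘ W)` of `q`-new integral classes. -/
def newLat (d : ALData N q) : Submodule ℤ (XMod (N * q) ℤ ℤ) :=
  LinearMap.ker (corAX ℤ ℤ d) ⊓ LinearMap.ker ((corAX ℤ ℤ d).comp (opWX ℤ ℤ d))

omit [NeZero N] [NeZero (N * q)] in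
theorem mem_newLat (d : ALData N q) (x : XMod (N * q) ℤ ℤ) :
    x ∈ newLat d ↔ corAX ℤ ℤ d x = 0 ∧ corAX ℤ ℤ d (opWX ℤ ℤ d x) = 0 := by
  rw [newLat, Submodule.mem_inf, LinearMap.mem_ker, LinearMap.mem_ker, LinearMap.comp_apply]

omit [NeZero N] in
/-- **(V5) + (V6)**: the conclusion of `HNewForm` from a `U`-package. -/
theorem newForm_of (d : ALData N q) (p : ℕ)
    (UA : (Additive (Gamma0 (N * q)) →+ ℂ) →+ (Additive (Gamma0 (N * q)) →+ ℂ))
    (hA : ∀ f, UA (periodMap (N * q) f) =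
      periodMap (N * q) (CuspForm.heckeULin 2 (Dvd.intro_left N rfl : q ∣ N * q) f))
    (hAc : ∀ c, UA (conjAdd.comp c) = conjAdd.comp (UA c))
    (hAs : ∀ (z : ℂ) (c : Additive (Gamma0 (N * q)) →+ ℂ), UA (z • c) = z • UA c)
    (hUU : ∀ x : XMod (N * q) ℤ ℤ, corAX ℤ ℤ d x = 0 → corAX ℤ ℤ d (opWX ℤ ℤ d x) = 0 →
      UA (UA ((castX (N * q) x : XMod (N * q) ℂ ℂ) : Additive (Gamma0 (N * q)) →+ ℂ)) =
        ((castX (N * q) x : XMod (N * q) ℂ ℂ) : Additive (Gamma0 (N * q)) →+ ℂ))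
    {ι : Type} (g : ι → GoodPrime (N * q)) (θ : ι → ℤ)
    (hK : ∀ i (z : XMod (N * q) ℤ ℤ), corAX ℤ ℤ d z = 0 → corAX ℤ ℤ d (opWX ℤ ℤ d z) = 0 →
      corAX ℤ ℤ d (heckeX (g i).2 ℤ ℤ z) = 0 ∧
        corAX ℤ ℤ d (opWX ℤ ℤ d (heckeX (g i).2 ℤ ℤ z)) = 0)
    (y : XMod (N * q) ℤ ℤ) (hy1 : corAX ℤ ℤ d y = 0) (hy2 : corAX ℤ ℤ d (opWX ℤ ℤ d y) = 0)
    (hyp : ∀ z : XMod (N * q) ℤ ℤ, y ≠ (p : ℤ) • z)
    (hyT : ∀ i, ∃ z : XMod (N * q) ℤ ℤ, corAX ℤ ℤ d z = 0 ∧ corAX ℤ ℤ d (opWX ℤ ℤ d z) = 0 ∧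
      heckeX (g i).2 ℤ ℤ y = θ i • y + (p : ℤ) • z) :
    ∃ (v : CuspForm (Gamma0 (N * q)) 2) (θ' : ι → integralClosure ℤ ℂ)
      (𝔪' : Ideal (integralClosure ℤ ℂ)),
      v ≠ 0 ∧ 𝔪'.IsMaximal ∧ (p : integralClosure ℤ ℂ) ∈ 𝔪' ∧
      (∀ i, CuspForm.heckeTLin 2 (g i).1.2 (g i).2 v = ((θ' i : integralClosure ℤ ℂ) : ℂ) • v ∧
        θ' i - ((θ i : ℤ) : integralClosure ℤ ℂ) ∈ 𝔪') ∧
      CuspForm.heckeULin 2 (Dvd.intro_left N rfl : q ∣ N * q)
        (CuspForm.heckeULin 2 (Dvd.intro_left N rfl : q ∣ N * q) v) = v := by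
  set U : Module.End ℂ (XMod (N * q) ℂ ℂ) :=
    restrictX UA (CuspForm.heckeULin 2 (Dvd.intro_left N rfl : q ∣ N * q)) hA hAc hAs with hUdef
  obtain ⟨v, θ', 𝔪', hv, hmax, hp, hT, hUv⟩ :=
    NewLift.exists_complex_new_vector p (newLat d) g
      (fun i z hz => (mem_newLat d _).2 (hK i z ((mem_newLat d z).1 hz).1 ((mem_newLat d z).1 hz).2))
      θ y ((mem_newLat d y).2 ⟨hy1, hy2⟩) (fun z _ => hyp z)
      (fun i => by
        obtain ⟨z, hz1, hz2, hz⟩ := hyT i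
        exact ⟨z, (mem_newLat d z).2 ⟨hz1, hz2⟩, hz⟩)
      U
      (fun x hx => by
        apply Subtype.ext
        rw [hUdef, restrictX_coe, restrictX_coe]
        exact hUU x ((mem_newLat d x).1 hx).1 ((mem_newLat d x).1 hx).2)
  refine Transport.exists_cuspForm_of_complex_vector (Dvd.intro_left N rfl : q ∣ N * q) UA hA hAc
    g p θ v hv θ' 𝔪' hmax hp (fun i => (hT i).1) (fun i => (hT i).2) ?_
  have := congrArg (fun x : XMod (N * q) ℂ ℂ => (x : Additive (Gamma0 (N * q)) →+ ℂ)) hUv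
  rw [hUdef] at this
  exact this

end

end Fermat.Agent.S41.Betti.NewFormOf
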