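import Fermat.Agent.S41.Betti.LatticeSpan
import Fermat.Agent.S41.Count.Descent

/-!
# S41 (V1): from a normalised eigenform to a mod-`p` eigenvector in the integral lattice
(helper29)

* `castX_mem_pLat_iff` : bridge between `Descent.pLat p (latX M)` and `p • XMod M ℤ ℤ`;
* `periodX f : XMod M ℂ ℂ`, the period character of a cusp form, `periodX_ne_zero`,
  `heckeX_periodX` (eigenvector for a normalised eigenform);
* **`exists_int_eigenvector`** : `f` normalised eigenform of level `M`, `𝔪 ≠ ⊤` an ideal of `ℤ̄`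
  containing `p`, a family `g i` of primes not dividing `M` and integers `χ i ≡ a_{g i}(f) mod 𝔪`
  ⟹ `∃ x : XMod M ℤ ℤ`, `x ∉ p • XMod M ℤ ℤ`, `T_{g i} x ≡ χ i • x (mod p)`.
-/

set_option autoImplicit false

namespace Fermat.Agent.S41.Betti.EigenInput

open CongruenceSubgroup ModularCurve ModularCurve.Period ModularFormClass
open Fermat.Agent.S29.Betti Fermat.Agent.S41.Betti.LatticeSpan Fermat.Agent.S41.Count
open scoped MatrixGroups

noncomputable section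

variable (M : ℕ) [NeZero M]

/-- `castX x ∈ p • latX` iff `x ∈ p • XMod M ℤ ℤ`. -/
theorem castX_mem_pLat_iff (p : ℕ) (x : XMod M ℤ ℤ) :
    castX M x ∈ Descent.pLat p (latX M) ↔ ∃ x' : XMod M ℤ ℤ, x = (p : ℤ) • x' := by
  rw [Descent.mem_pLat_iff_nsmul]
  constructor
  · rintro ⟨_, ⟨x', rfl⟩, h⟩
    refine ⟨x', castX_injective M ?_⟩
    rw [h, map_zsmul, natCast_zsmul]
  · rintro ⟨x', rfl⟩
    exact ⟨castX M x', castX_mem_latX M x', by rw [map_zsmul, natCast_zsmul]⟩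

/-- the period character of a cusp form, as an element of `XMod M ℂ ℂ`. -/
def periodX (f : CuspForm (Gamma0 M) 2) : XMod M ℂ ℂ :=
  ⟨periodMap M f, by
    rw [XMod_complex_eq]
    exact Fermat.Agent.S21.periodMap_mem_parabolicHoms M f⟩

@[simp] theorem periodX_coe (f : CuspForm (Gamma0 M) 2) :
    ((periodX M f : XMod M ℂ ℂ) : Additive (Gamma0 M) →+ ℂ) = periodMap M f := rfl

theorem periodX_ne_zero {f : CuspForm (Gamma0 M) 2} (hf : f ≠ 0) : periodX M f ≠ 0 := by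
  intro h
  apply periodMap_ne_zero hf
  have := congrArg (fun u : XMod M ℂ ℂ => (u : Additive (Gamma0 M) →+ ℂ)) h
  exact this

/-- the period character of a normalised eigenform is a Hecke eigenvector. -/
theorem heckeX_periodX {f : CuspForm (Gamma0 M) 2} (hf : f.IsNormalizedEigenform)
    {ℓ : ℕ} [Fact ℓ.Prime] (hℓ : ℓ.Prime) (hℓM : ¬ ℓ ∣ M) :
    heckeX hℓM ℂ ℂ (periodX M f) = qCoeff (⇑f) ℓ • periodX M f := by
  apply Subtype.ext
  rw [heckeX_coe, periodX_coe]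
  exact heckeHom_periodMap_of_isNormalizedEigenform hf hℓ hℓM

/-- **(V1) EigenInput.** -/
theorem exists_int_eigenvector {f : CuspForm (Gamma0 M) 2} (hf : f.IsNormalizedEigenform)
    (p : ℕ) (hp : p ≠ 0) (𝔪 : Ideal (integralClosure ℤ ℂ)) (h𝔪 : 𝔪 ≠ ⊤)
    (hp𝔪 : (p : integralClosure ℤ ℂ) ∈ 𝔪)
    {ι : Type*} (g : ι → GoodPrime M) (χ : ι → ℤ)
    (hχ : ∀ i, ∃ c : integralClosure ℤ ℂ, (c : ℂ) = qCoeff (⇑f) ((g i).1 : ℕ) ∧
      c - (χ i : integralClosure ℤ ℂ) ∈ 𝔪)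
    (hcomm : ∀ i j, Commute (heckeX (g i).2 ℂ ℂ) (heckeX (g j).2 ℂ ℂ)) :
    ∃ x : XMod M ℤ ℤ, (∀ x' : XMod M ℤ ℤ, x ≠ (p : ℤ) • x') ∧
      ∀ i, ∃ w : XMod M ℤ ℤ, heckeX (g i).2 ℤ ℤ x = χ i • x + (p : ℤ) • w := by
  obtain ⟨f₀, hf₀L, hf₀p, hf₀T⟩ := Descent.exists_mod_eigenvector_of_eigenvector
    (fun i => heckeX (g i).2 ℂ ℂ) hcomm (latX M) (latX_fg M) (span_latX M)
    (fun i x hx => heckeX_mem_latX M (g i).2 hx) p hp (periodX M f)
    (periodX_ne_zero M (ne_zero_of_isNormalizedEigenform hf))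
    (fun i => qCoeff (⇑f) ((g i).1 : ℕ))
    (fun i => heckeX_periodX M hf (g i).1.2 (g i).2) 𝔪 h𝔪 hp𝔪 χ hχ
  obtain ⟨x, rfl⟩ := hf₀L
  refine ⟨x, fun x' hx' => hf₀p ((castX_mem_pLat_iff M p x).2 ⟨x', hx'⟩), fun i => ?_⟩
  have h1 := hf₀T i
  have h3 : (χ i : ℂ) • castX M x = castX M (χ i • x) := by
    rw [map_zsmul]
    exact Int.cast_smul_eq_zsmul ℂ (χ i) (castX M x)
  have h2 : heckeX (g i).2 ℂ ℂ (castX M x) - (χ i : ℂ) • castX M x
      = castX M (heckeX (g i).2 ℤ ℤ x - χ i • x) := by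
    rw [h3, map_sub, castX_heckeX]
  rw [h2, castX_mem_pLat_iff] at h1
  obtain ⟨w, hw⟩ := h1
  exact ⟨w, by rw [← hw]; abel⟩

end

end Fermat.Agent.S41.Betti.EigenInput
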