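import Fermat.Agent.S41.Betti.EigenInput
import Fermat.Agent.S41.Betti.HeckeCommute

/-!
# S41 (V1): `EigenInput.exists_int_eigenvector` without the commutativity hypothesis (helper29)

`hcomm` is discharged by helper7's `HeckeCommute.commute_heckeX`.
-/

set_option autoImplicit false

namespace Fermat.Agent.S41.Betti.EigenInput2

open CongruenceSubgroup ModularFormClass
open Fermat.Agent.S29.Betti
open scoped MatrixGroups

/-- **(V1) EigenInput, unconditional.** -/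
theorem exists_int_eigenvector (M : ℕ) [NeZero M] {f : CuspForm (Gamma0 M) 2}
    (hf : f.IsNormalizedEigenform)
    (p : ℕ) (hp : p ≠ 0) (𝔪 : Ideal (integralClosure ℤ ℂ)) (h𝔪 : 𝔪 ≠ ⊤)
    (hp𝔪 : (p : integralClosure ℤ ℂ) ∈ 𝔪)
    {ι : Type*} (g : ι → GoodPrime M) (χ : ι → ℤ)
    (hχ : ∀ i, ∃ c : integralClosure ℤ ℂ, (c : ℂ) = qCoeff (⇑f) ((g i).1 : ℕ) ∧
      c - (χ i : integralClosure ℤ ℂ) ∈ 𝔪) :
    ∃ x : XMod M ℤ ℤ, (∀ x' : XMod M ℤ ℤ, x ≠ (p : ℤ) • x') ∧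
      ∀ i, ∃ w : XMod M ℤ ℤ, heckeX (g i).2 ℤ ℤ x = χ i • x + (p : ℤ) • w :=
  Fermat.Agent.S41.Betti.EigenInput.exists_int_eigenvector M hf p hp 𝔪 h𝔪 hp𝔪 g χ hχ
    (fun i j => Fermat.Agent.S41.Betti.HeckeCommute.commute_heckeX (g i).2 (g j).2)

end Fermat.Agent.S41.Betti.EigenInput2
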