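import Fermat.Agent.S41.Betti.RedP
import Fermat.Agent.S41.Degen.Defs

/-!
# S41 (level raising), V2 glue: from the mod-`p` Ihara block to the integral Ihara hypothesis

* `BlockIharaAt p N q r hrN` : the mod-`p` Ihara statement at one prime `r ∤ N` in the Betti model
  (`c₁ ∘ incl + c₂ ∘ dConj = 0` on `Γ₀(Nq)` forces `(T_r - (r+1))^n c₁ = (T_r - (r+1))^n c₂ = 0`);
* `redX_resAX`, `redX_resBX` : reduction modulo `p` commutes with the two degeneracy maps;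
* `ihara_int_of_block` : VERBATIM the hypothesis `Ihara` of
  `Count.Product.exists_new_eigenvector` for `rA = resAX N q ℤ ℤ`, `rB = resBX N q ℤ ℤ`,
  `TX i0 = heckeX hrN ℤ ℤ`.
-/

set_option autoImplicit false

namespace Fermat.Agent.S41.Betti.IharaInt

open Fermat.Agent.S29.Betti CongruenceSubgroup
open Fermat.Agent.S41.Degen Fermat.Agent.S41.Betti.RedP
open scoped MatrixGroups

noncomputable section

variable (p N q r : ℕ) [NeZero q] [Fact r.Prime]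

/-- **the mod-`p` Ihara block at the prime `r`** (nilpotent form): if `c₁, c₂` are parabolic
classes of level `N` with coefficients `𝔽_p` and `α^* c₁ + β^* c₂ = 0` on `Γ₀(Nq)`, then a power of
`T_r - (r+1)` kills both. -/
def BlockIharaAt (hrN : ¬ r ∣ N) : Prop :=
  ∀ c₁ c₂ : XMod N (ZMod p) (ZMod p),
    (∀ γ : Gamma0 (N * q), c₁.1 (Additive.ofMul (incl N q γ)) +
      c₂.1 (Additive.ofMul (dConj N q γ)) = 0) →
    ∃ n : ℕ,
      ((heckeX hrN (ZMod p) (ZMod p) - (((r : ℤ) + 1 : ℤ) : ZMod p) •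
        (1 : Module.End (ZMod p) (XMod N (ZMod p) (ZMod p)))) ^ n) c₁ = 0 ∧
      ((heckeX hrN (ZMod p) (ZMod p) - (((r : ℤ) + 1 : ℤ) : ZMod p) •
        (1 : Module.End (ZMod p) (XMod N (ZMod p) (ZMod p)))) ^ n) c₂ = 0

variable {N q}

/-- reduction commutes with `α^*`. -/
theorem redX_resAX (x : XMod N ℤ ℤ) :
    redX p (resAX N q ℤ ℤ x) = resAX N q (ZMod p) (ZMod p) (redX p x) := by
  apply Subtype.ext
  rfl

/-- reduction commutes with `β^*`. -/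
theorem redX_resBX (x : XMod N ℤ ℤ) :
    redX p (resBX N q ℤ ℤ x) = resBX N q (ZMod p) (ZMod p) (redX p x) := by
  apply Subtype.ext
  rfl

/-- reduction commutes with `W`. -/
theorem redX_opWX (d : ALData N q) (y : XMod (N * q) ℤ ℤ) :
    redX p (opWX ℤ ℤ d y) = opWX (ZMod p) (ZMod p) d (redX p y) := by
  apply Subtype.ext
  rfl

/-- pointwise form of `α^* c₁ + β^* c₂ = 0`. -/
theorem resAX_add_resBX_eq_zero_iff {R : Type*} [Semiring R] {A : Type*} [AddCommGroup A]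
    [Module R A] (c₁ c₂ : XMod N R A) :
    resAX N q R A c₁ + resBX N q R A c₂ = 0 ↔
      ∀ γ : Gamma0 (N * q), c₁.1 (Additive.ofMul (incl N q γ)) +
        c₂.1 (Additive.ofMul (dConj N q γ)) = 0 := by
  constructor
  · intro h γ
    have h1 := congrArg (fun u : XMod (N * q) R A => u.1 (Additive.ofMul γ)) h
    exact h1
  · intro h
    apply Subtype.ext
    ext γ
    exact h (Additive.toMul γ)

theorem shift_cast : (((r : ℤ) + 1 : ℤ) : ZMod p) = (r : ZMod p) + 1 := by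
  push_cast
  rfl

/-- the block from its variant "`c₁ ∘ incl = c₂ ∘ dConj`" (sign of `c₂` flipped). -/
theorem blockIharaAt_of_eq (hrN : ¬ r ∣ N)
    (h : ∀ c₁ c₂ : XMod N (ZMod p) (ZMod p),
      (∀ γ : Gamma0 (N * q), c₁.1 (Additive.ofMul (incl N q γ)) =
        c₂.1 (Additive.ofMul (dConj N q γ))) →
      ∃ n : ℕ,
        ((heckeX hrN (ZMod p) (ZMod p) - (((r : ℤ) + 1 : ℤ) : ZMod p) •
          (1 : Module.End (ZMod p) (XMod N (ZMod p) (ZMod p)))) ^ n) c₁ = 0 ∧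
        ((heckeX hrN (ZMod p) (ZMod p) - (((r : ℤ) + 1 : ℤ) : ZMod p) •
          (1 : Module.End (ZMod p) (XMod N (ZMod p) (ZMod p)))) ^ n) c₂ = 0) :
    BlockIharaAt p N q r hrN := by
  intro c₁ c₂ h0
  obtain ⟨n, h1, h2⟩ := h c₁ (-c₂) (fun γ => by
    have e : ((-c₂ : XMod N (ZMod p) (ZMod p)) : Additive (Gamma0 N) →+ ZMod p) = -c₂.1 :=
      NegMemClass.coe_neg c₂
    rw [e, AddMonoidHom.neg_apply]
    exact eq_neg_of_add_eq_zero_left (h0 γ))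
  refine ⟨n, h1, ?_⟩
  rw [map_neg] at h2
  exact neg_eq_zero.1 h2

/-- the block from its exponent-`2` form. -/
theorem blockIharaAt_of_sq (hrN : ¬ r ∣ N)
    (h : ∀ c₁ c₂ : XMod N (ZMod p) (ZMod p),
      (∀ γ : Gamma0 (N * q), c₁.1 (Additive.ofMul (incl N q γ)) +
        c₂.1 (Additive.ofMul (dConj N q γ)) = 0) →
        ((heckeX hrN (ZMod p) (ZMod p) - (((r : ℤ) + 1 : ℤ) : ZMod p) •
          (1 : Module.End (ZMod p) (XMod N (ZMod p) (ZMod p)))) ^ 2) c₁ = 0 ∧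
        ((heckeX hrN (ZMod p) (ZMod p) - (((r : ℤ) + 1 : ℤ) : ZMod p) •
          (1 : Module.End (ZMod p) (XMod N (ZMod p) (ZMod p)))) ^ 2) c₂ = 0) :
    BlockIharaAt p N q r hrN :=
  fun c₁ c₂ h0 => ⟨2, h c₁ c₂ h0⟩

variable {p r}

/-- **integral Ihara from the mod-`p` block**: the hypothesis `Ihara` of
`Count.Product.exists_new_eigenvector`. -/
theorem ihara_int_of_block [hp : Fact p.Prime] (hrN : ¬ r ∣ N) (hBI : BlockIharaAt p N q r hrN)
    (θ : ℤ) (hθ : ¬ (p : ℤ) ∣ θ - ((r : ℤ) + 1)) :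
    ∀ x₁ x₂ : XMod N ℤ ℤ,
      (∃ z : XMod (N * q) ℤ ℤ, resAX N q ℤ ℤ x₁ + resBX N q ℤ ℤ x₂ = (p : ℤ) • z) →
      (∃ w : XMod N ℤ ℤ, heckeX hrN ℤ ℤ x₁ = θ • x₁ + (p : ℤ) • w) →
      (∃ w : XMod N ℤ ℤ, heckeX hrN ℤ ℤ x₂ = θ • x₂ + (p : ℤ) • w) →
      (∃ w : XMod N ℤ ℤ, x₁ = (p : ℤ) • w) ∧ (∃ w : XMod N ℤ ℤ, x₂ = (p : ℤ) • w) := by
  intro x₁ x₂ hU h₁ h₂
  refine ihara_int p (redX (M := N) p) (redX (M := N * q) p)
    (fun x hx => (redX_eq_zero_iff p hp.out.ne_zero x).1 hx)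
    (natCast_smul_eq_zero p) (natCast_smul_eq_zero p)
    (resAX N q ℤ ℤ).toAddMonoidHom (resBX N q ℤ ℤ).toAddMonoidHom
    (resAX N q (ZMod p) (ZMod p)).toAddMonoidHom (resBX N q (ZMod p) (ZMod p)).toAddMonoidHom
    (redX_resAX p) (redX_resBX p)
    (heckeX hrN ℤ ℤ).toAddMonoidHom (heckeX hrN (ZMod p) (ZMod p)).toAddMonoidHom
    (redX_heckeX p hrN) θ ?_ x₁ x₂ hU h₁ h₂
  intro c₁ c₂ h0 e₁ e₂
  refine noEigen_zsmul_of_nilpotent p
    (resAX N q (ZMod p) (ZMod p)).toAddMonoidHom (resBX N q (ZMod p) (ZMod p)).toAddMonoidHom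
    (heckeX hrN (ZMod p) (ZMod p)) ((r : ℤ) + 1) θ hθ ?_ c₁ c₂ h0 e₁ e₂
  intro d₁ d₂ hd
  exact hBI d₁ d₂ ((resAX_add_resBX_eq_zero_iff d₁ d₂).1 hd)

end

end Fermat.Agent.S41.Betti.IharaInt
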