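import Fermat.Agent.S41.Assembly.NewVector
import Fermat.Agent.S41.Betti.NewLift
import Fermat.Agent.S41.Betti.Transport
import Fermat.Agent.S41.Betti.UOp
import Fermat.Agent.S41.Degen.CastX

/-!
# S41, (V5 + V6 + I3): the package `HNewForm` of the assembly `Assembly/NewVector.lean`

An integral class `y ∈ K := ker α_* ∩ ker (α_* W) ⊆ X_ℤ(Nq)`, `y ∉ p X_ℤ(Nq)`, which is an
eigenvector mod `p K` of the `T_ℓ` (`K` being `T_ℓ`-stable), gives a nonzero cusp form of level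
`N q`, eigen for the `T_ℓ` with eigenvalues congruent to the given ones modulo a maximal ideal
above `p`, on which `U_q ∘ U_q = 1`:

* `NewLift.exists_complex_new_vector` (V5: Deligne–Serre lifting inside `K ⊗ ℂ`, with
  `U := UOp.heckeUX`, `U² = 1` on `castX K` by `Degen.opX_opX_castX` = (I3));
* `Transport.exists_cuspForm_of_complex_vector` (V6: Eichler–Shimura transport, with
  `A := UOp.heckeUHom`, `UOp.periodMap_heckeULin`).
-/

set_option autoImplicit false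

namespace Fermat.Agent.S41.Betti.NewForm

open CongruenceSubgroup ModularCurve ModularCurve.Period
open Fermat.Agent.S29.Betti Fermat.Agent.S41.Betti.LatticeSpan
open Fermat.Agent.S41.Degen Fermat.Agent.S41.Degen.Cor
open Fermat.Agent.S41.Betti.HeckeCommute
open scoped MatrixGroups

/-- **(V5 + V6 + I3)**, in the unfolded form. -/
theorem exists_newform (p N q : ℕ) [NeZero N] [Fact q.Prime] [NeZero (N * q)]
    (d : ALData N q) {ι : Type} (g : ι → GoodPrime (N * q)) (θ : ι → ℤ)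
    (hK : ∀ i (z : XMod (N * q) ℤ ℤ), corAX ℤ ℤ d z = 0 → corAX ℤ ℤ d (opWX ℤ ℤ d z) = 0 →
      corAX ℤ ℤ d (heckeX (g i).2 ℤ ℤ z) = 0 ∧
      corAX ℤ ℤ d (opWX ℤ ℤ d (heckeX (g i).2 ℤ ℤ z)) = 0)
    (y : XMod (N * q) ℤ ℤ)
    (hy1 : corAX ℤ ℤ d y = 0) (hy2 : corAX ℤ ℤ d (opWX ℤ ℤ d y) = 0)
    (hyp : ∀ z : XMod (N * q) ℤ ℤ, y ≠ (p : ℤ) • z)
    (hyT : ∀ i, ∃ z : XMod (N * q) ℤ ℤ, corAX ℤ ℤ d z = 0 ∧ corAX ℤ ℤ d (opWX ℤ ℤ d z) = 0 ∧
      heckeX (g i).2 ℤ ℤ y = θ i • y + (p : ℤ) • z) :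
    ∃ (v : CuspForm (Gamma0 (N * q)) 2) (θ' : ι → integralClosure ℤ ℂ)
      (𝔪' : Ideal (integralClosure ℤ ℂ)),
      v ≠ 0 ∧ 𝔪'.IsMaximal ∧ (p : integralClosure ℤ ℂ) ∈ 𝔪' ∧
      (∀ i, CuspForm.heckeTLin 2 (g i).1.2 (g i).2 v = ((θ' i : integralClosure ℤ ℂ) : ℂ) • v ∧
        θ' i - ((θ i : ℤ) : integralClosure ℤ ℂ) ∈ 𝔪') ∧
      CuspForm.heckeULin 2 (Dvd.intro_left N rfl : q ∣ N * q)
        (CuspForm.heckeULin 2 (Dvd.intro_left N rfl : q ∣ N * q) v) = v := by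
  have hqM : q ∣ N * q := Dvd.intro_left N rfl
  let K : Submodule ℤ (XMod (N * q) ℤ ℤ) :=
    LinearMap.ker (corAX ℤ ℤ d) ⊓ LinearMap.ker ((corAX ℤ ℤ d).comp (opWX ℤ ℤ d))
  have hmemK : ∀ z : XMod (N * q) ℤ ℤ,
      z ∈ K ↔ corAX ℤ ℤ d z = 0 ∧ corAX ℤ ℤ d (opWX ℤ ℤ d z) = 0 := by
    intro z
    rw [Submodule.mem_inf, LinearMap.mem_ker, LinearMap.mem_ker, LinearMap.comp_apply]
  obtain ⟨v, θ', 𝔪', hv, hmax, hp, hT, hUU⟩ :=
    Fermat.Agent.S41.Betti.NewLift.exists_complex_new_vector p K g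
      (fun i z hz => (hmemK _).mpr (hK i z ((hmemK z).mp hz).1 ((hmemK z).mp hz).2))
      θ y ((hmemK y).mpr ⟨hy1, hy2⟩) (fun z _ => hyp z)
      (fun i => by
        obtain ⟨z, hz1, hz2, hz⟩ := hyT i
        exact ⟨z, (hmemK z).mpr ⟨hz1, hz2⟩, hz⟩)
      (Fermat.Agent.S41.Betti.UOp.heckeUX hqM ℂ ℂ)
      (fun x hx => opX_opX_castX d (Fermat.Agent.S41.Betti.UOp.uDatum hqM) (fun _ => rfl)
        ((hmemK x).mp hx).1 ((hmemK x).mp hx).2)
  exact Fermat.Agent.S41.Betti.Transport.exists_cuspForm_of_complex_vector hqM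
    (Fermat.Agent.S41.Betti.UOp.heckeUHom hqM ℂ)
    (fun f => (Fermat.Agent.S41.Betti.UOp.periodMap_heckeULin hqM f).symm)
    (fun c => Fermat.Agent.S41.Betti.UOp.heckeUHom_comp hqM ℂ conjAdd c)
    g p θ v hv θ' 𝔪' hmax hp (fun i => (hT i).1) (fun i => (hT i).2)
    (congrArg Subtype.val hUU)

/-- **`HNewForm`**, the closed hypothesis (6) of `Assembly.blockNewVectorSq_of`. -/
theorem hNewForm : Fermat.Agent.S41.Assembly.HNewForm := by
  intro p N q _ _ _ _ d ι g θ hK y hy1 hy2 hyp hyT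
  exact exists_newform p N q d g θ hK y hy1 hy2 hyp hyT

end Fermat.Agent.S41.Betti.NewForm
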