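import Fermat.Agent.S41.Betti.EigenInput2

/-!
# S41 (level raising), V1 packaging: the start vector of the counting argument

From the hypotheses of `Top.BlockNewVector` (a level-`N` normalised eigenform `f` congruent modulo
`𝔪 ∋ p` to an integer system `b` on a set `P` of primes, and the level-raising congruence
`a_q(f)² ≡ (q+1)² (mod 𝔪)`): a sign `ε = ±1` and an integral Betti class `x ∉ p X_ℤ(N)` with
`T_ℓ x ≡ b_ℓ x`, `T_q x ≡ ε (q+1) x (mod p)`: the inputs `x hx hxT hxq` of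
`Count.Product.exists_new_eigenvector`.
-/

set_option autoImplicit false

namespace Fermat.Agent.S41.Betti.Start

open CongruenceSubgroup ModularFormClass
open Fermat.Agent.S29.Betti
open scoped MatrixGroups

/-- the sign: in a prime ideal, `a² - c² ∈ 𝔪` gives `a - ε c ∈ 𝔪` with `ε = ±1`. -/
theorem exists_sign {R : Type*} [CommRing R] (𝔪 : Ideal R) (h𝔪 : 𝔪.IsPrime) (a : R) (c : ℤ)
    (h : a ^ 2 - (c : R) ^ 2 ∈ 𝔪) :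
    ∃ ε : ℤ, ε * ε = 1 ∧ a - ((ε * c : ℤ) : R) ∈ 𝔪 := by
  have h1 : (a - (c : R)) * (a + (c : R)) ∈ 𝔪 := by
    have e : (a - (c : R)) * (a + (c : R)) = a ^ 2 - (c : R) ^ 2 := by ring
    rw [e]; exact h
  rcases h𝔪.mem_or_mem h1 with h2 | h2
  · exact ⟨1, by norm_num, by simpa using h2⟩
  · refine ⟨-1, by norm_num, ?_⟩
    have e : a - (((-1 : ℤ) * c : ℤ) : R) = a + (c : R) := by push_cast; ring
    rw [e]; exact h2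

/-- **the start vector.** -/
theorem exists_start {p N q : ℕ} [NeZero N] [hq : Fact q.Prime] (hp : p.Prime) (hqN : ¬ q ∣ N)
    {f : CuspForm (Gamma0 N) 2} (hf : f.IsNormalizedEigenform)
    (𝔪 : Ideal (integralClosure ℤ ℂ)) (hmax : 𝔪.IsMaximal)
    (hpm : (p : integralClosure ℤ ℂ) ∈ 𝔪) (b : ℕ → ℤ) (P : ℕ → Prop)
    (hcong : ∀ ℓ : ℕ, ℓ.Prime → P ℓ → ¬ ℓ ∣ N → ℓ ≠ p →
      ∃ a : integralClosure ℤ ℂ, (a : ℂ) = ModularFormClass.qCoeff f ℓ ∧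
        a - ((b ℓ : ℤ) : integralClosure ℤ ℂ) ∈ 𝔪)
    (hLR : ∃ a : integralClosure ℤ ℂ, (a : ℂ) = ModularFormClass.qCoeff f q ∧
      a ^ 2 - ((q : integralClosure ℤ ℂ) + 1) ^ 2 ∈ 𝔪) :
    ∃ ε : ℤ, ε * ε = 1 ∧ ∃ x : XMod N ℤ ℤ, (∀ x' : XMod N ℤ ℤ, x ≠ (p : ℤ) • x') ∧
      (∀ (ℓ : ℕ) [Fact ℓ.Prime] (hℓN : ¬ ℓ ∣ N), P ℓ → ℓ ≠ p →
        ∃ w : XMod N ℤ ℤ, heckeX hℓN ℤ ℤ x = b ℓ • x + (p : ℤ) • w) ∧
      ∃ w : XMod N ℤ ℤ, heckeX hqN ℤ ℤ x = (ε * ((q : ℤ) + 1)) • x + (p : ℤ) • w := by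
  obtain ⟨a, haq, ha⟩ := hLR
  have ha' : a ^ 2 - ((((q : ℤ) + 1 : ℤ)) : integralClosure ℤ ℂ) ^ 2 ∈ 𝔪 := by
    have e : ((((q : ℤ) + 1 : ℤ)) : integralClosure ℤ ℂ) = (q : integralClosure ℤ ℂ) + 1 := by
      push_cast; rfl
    rw [e]; exact ha
  obtain ⟨ε, hε, haε⟩ := exists_sign 𝔪 hmax.isPrime a ((q : ℤ) + 1) ha'
  refine ⟨ε, hε, ?_⟩
  -- the index family
  let J : Type := {g : GoodPrime N // P (g.1 : ℕ) ∧ ((g.1 : ℕ) ≠ p)}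
  let gq : GoodPrime N := ⟨⟨q, hq.out⟩, hqN⟩
  let g : Option J → GoodPrime N := fun o => o.elim gq (fun j => j.1)
  let χ : Option J → ℤ := fun o => o.elim (ε * ((q : ℤ) + 1)) (fun j => b (j.1.1 : ℕ))
  have hχ : ∀ i, ∃ c : integralClosure ℤ ℂ, (c : ℂ) = qCoeff (⇑f) ((g i).1 : ℕ) ∧
      c - (χ i : integralClosure ℤ ℂ) ∈ 𝔪 := by
    rintro (_ | j)
    · exact ⟨a, haq, haε⟩
    · exact hcong (j.1.1 : ℕ) j.1.1.2 j.2.1 j.1.2 j.2.2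
  obtain ⟨x, hx, hxT⟩ := EigenInput2.exists_int_eigenvector N hf p hp.ne_zero 𝔪 hmax.ne_top hpm g χ hχ
  refine ⟨x, hx, ?_, ?_⟩
  · intro ℓ hℓ hℓN hPℓ hℓp
    exact hxT (some ⟨⟨⟨ℓ, hℓ.out⟩, hℓN⟩, hPℓ, hℓp⟩)
  · exact hxT none

end Fermat.Agent.S41.Betti.Start
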